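import Mathlib
import Fermat.Prelude.Def_ModularForm_HeckeOperatorForms
import Fermat.Agent.S23.Defs

/-!
# P-EIS (S16), module T0: weight-two facts at prime level

For a prime `p` and `G ∈ M₂(Γ₀(p))`:

* `frickeForm` : the Fricke involution `G ↦ G ∣[k] W_N`, `W_N = [[0,-1],[N,0]]`, as a map
  `M_k(Γ₀(N)) → M_k(Γ₀(N))` (any level `N`, any weight `k`);
* `cosetEquivPrime` : the explicit transversal `{1} ∪ {(S T^j)⁻¹ : j < p}` of `SL(2,ℤ)/Γ₀(p)`
  (in the `GL(2,ℝ)`-model `Q0 p` used by `SlashInvariantForm.quotientFunc`,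
  `ModularForm.trace`, `ModularForm.norm`);
* `sum_quotientFunc_prime`, `prod_quotientFunc_prime` : sums / products over the cosets;
* `fricke_eq_neg_heckeU` : `G ∣[2] W_p = - U_p G`   (trace to level one vanishes in weight 2);
* `slash_S_mul_T_zpow` : `G ∣[2] (S T^j) = - (U_p G) ∣[2] [[1,j],[0,p]]`, i.e.
  `(G ∣ S T^j)(z) = -(1/p) (U_p G)((z+j)/p)`;
* `heckeU_heckeU_weight_two` : `U_p (U_p G) = G`.
-/

set_option autoImplicit false

namespace Fermat.Agent.S16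

open UpperHalfPlane ModularForm Matrix Matrix.SpecialLinearGroup Fermat.Agent.S23
open scoped MatrixGroups ModularForm

/-- Scalar matrices act trivially by the weight-two slash action. -/
theorem slash_two_scalar (f : ℍ → ℂ) (u : ℝˣ) :
    f ∣[(2 : ℤ)] (GeneralLinearGroup.scalar (Fin 2) u) = f := by
  ext τ
  have hdet : ((GeneralLinearGroup.scalar (Fin 2) u).det : ℝ) = (u : ℝ) ^ 2 := by
    simp [GeneralLinearGroup.scalar, sq]
  have hpos : 0 < ((GeneralLinearGroup.scalar (Fin 2) u).det : ℝ) := by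
    rw [hdet]; exact sq_pos_of_ne_zero u.ne_zero
  have hu : ((u : ℝ) : ℂ) ≠ 0 := by exact_mod_cast u.ne_zero
  rw [ModularForm.slash_apply, UpperHalfPlane.σ, if_pos hpos, glScalar_smul, denom_scalar, hdet]
  simp only [ContinuousAlgEquiv.refl_apply, abs_pow, sq_abs, Complex.ofReal_pow]
  have h21 : ((2 : ℤ) - 1) = 1 := by norm_num
  rw [h21, zpow_one]
  field_simp

/-- In weight two the slash action only depends on the matrix up to a nonzero real scalar. -/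
theorem slash_two_eq_of_smul (f : ℍ → ℂ) (g g' : GL (Fin 2) ℝ) (c : ℝ) (hc : c ≠ 0)
    (h : (g' : Matrix (Fin 2) (Fin 2) ℝ) = c • (g : Matrix (Fin 2) (Fin 2) ℝ)) :
    f ∣[(2 : ℤ)] g' = f ∣[(2 : ℤ)] g := by
  have hg : g' = GeneralLinearGroup.scalar (Fin 2) (Units.mk0 c hc) * g := by
    apply Units.ext
    rw [h]
    simp [GeneralLinearGroup.scalar, Matrix.smul_eq_diagonal_mul]
  rw [hg, SlashAction.slash_mul, slash_two_scalar]

/-- The Fricke matrix `[[0,-1],[N,0]]`. -/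
noncomputable def frickeGL (N : ℕ) [NeZero N] : GL (Fin 2) ℝ :=
  Matrix.GeneralLinearGroup.mkOfDetNeZero !![0, -1; (N : ℝ), 0]
    (by simp [Matrix.det_fin_two_of, NeZero.ne])

@[simp] theorem val_frickeGL (N : ℕ) [NeZero N] :
    ((frickeGL N : GL (Fin 2) ℝ) : Matrix (Fin 2) (Fin 2) ℝ) = !![0, -1; (N : ℝ), 0] := rfl

theorem det_frickeGL (N : ℕ) [NeZero N] : ((frickeGL N).det : ℝ) = N := by
  rw [Matrix.GeneralLinearGroup.val_det_apply, val_frickeGL, Matrix.det_fin_two_of]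
  ring

/-- The Fricke matrix normalises `Γ₀(N)`. -/
theorem fricke_mul_mapGL (N : ℕ) [NeZero N] (γ : SL(2, ℤ))
    (hγ : γ ∈ CongruenceSubgroup.Gamma0 N) :
    ∃ γ' ∈ CongruenceSubgroup.Gamma0 N,
      frickeGL N * mapGL ℝ γ = mapGL ℝ γ' * frickeGL N := by
  rw [CongruenceSubgroup.Gamma0_mem] at hγ
  obtain ⟨c', hc'⟩ : (N : ℤ) ∣ γ 1 0 := (ZMod.intCast_zmod_eq_zero_iff_dvd _ _).mp hγ
  have hdet : γ 0 0 * γ 1 1 - γ 0 1 * γ 1 0 = 1 := by
    have := γ.det_coe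
    rw [Matrix.det_fin_two] at this
    exact this
  have hdet' : (!![γ 1 1, -c'; -(N : ℤ) * γ 0 1, γ 0 0] : Matrix (Fin 2) (Fin 2) ℤ).det = 1 := by
    rw [Matrix.det_fin_two_of]
    rw [hc'] at hdet
    linear_combination hdet
  obtain ⟨γ', h00, h01, h10', h11⟩ : ∃ γ' : SL(2, ℤ), γ' 0 0 = γ 1 1 ∧ γ' 0 1 = -c' ∧
      γ' 1 0 = -(N : ℤ) * γ 0 1 ∧ γ' 1 1 = γ 0 0 :=
    ⟨⟨_, hdet'⟩, rfl, rfl, rfl, rfl⟩
  refine ⟨γ', ?_, ?_⟩
  · rw [CongruenceSubgroup.Gamma0_mem, h10']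
    simp
  · apply Units.ext
    ext i j
    have h10 : ((γ 1 0 : ℤ) : ℝ) = (N : ℝ) * (c' : ℝ) := by rw [hc']; push_cast; ring
    fin_cases i <;> fin_cases j <;>
      simp [Matrix.mul_apply, Fin.sum_univ_two, h10, h00, h01, h10', h11] <;>
      ring

open ConjAct Pointwise in
theorem G0_le_conj_fricke (N : ℕ) [NeZero N] :
    G0 N ≤ toConjAct (frickeGL N)⁻¹ • G0 N := by
  rintro x ⟨γ, hγ, rfl⟩
  obtain ⟨γ', hγ', h⟩ := fricke_mul_mapGL N γ hγ
  rw [map_inv, Subgroup.mem_inv_pointwise_smul_iff, toConjAct_smul, h, mul_inv_cancel_right]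
  exact ⟨γ', hγ', rfl⟩

/-- The Fricke (Atkin–Lehner) involution `f ↦ f ∣[k] W_N` on modular forms of level `Γ₀(N)`. -/
noncomputable def frickeForm (N : ℕ) [NeZero N] (k : ℤ)
    (G : ModularForm (CongruenceSubgroup.Gamma0 N) k) :
    ModularForm (CongruenceSubgroup.Gamma0 N) k where
  toFun := ⇑G ∣[k] frickeGL N
  slash_action_eq' γ hγ :=
    (ModularForm.translate G (frickeGL N)).slash_action_eq' γ (G0_le_conj_fricke N hγ)
  holo' := (ModularForm.translate G (frickeGL N)).holo'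
  bdd_at_cusps' hc :=
    (ModularForm.translate G (frickeGL N)).bdd_at_cusps' (hc.mono (G0_le_conj_fricke N))

@[simp] theorem coe_frickeForm (N : ℕ) [NeZero N] (k : ℤ)
    (G : ModularForm (CongruenceSubgroup.Gamma0 N) k) :
    ⇑(frickeForm N k G) = ⇑G ∣[k] frickeGL N := rfl

/-- `SL(2,ℤ)` mapped onto its image `𝒮ℒ` in `GL(2,ℝ)`. -/
noncomputable def toSL : SL(2, ℤ) →* ↥𝒮ℒ :=
  (mapGL ℝ : SL(2, ℤ) →* GL (Fin 2) ℝ).rangeRestrict

@[simp] theorem coe_toSL (g : SL(2, ℤ)) : ((toSL g : ↥𝒮ℒ) : GL (Fin 2) ℝ) = mapGL ℝ g := rfl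

theorem toSL_surjective : Function.Surjective toSL :=
  MonoidHom.rangeRestrict_surjective _

theorem mapGL_mem_G0_iff (N : ℕ) (g : SL(2, ℤ)) :
    (mapGL ℝ g : GL (Fin 2) ℝ) ∈ G0 N ↔ g ∈ CongruenceSubgroup.Gamma0 N := by
  constructor
  · rintro ⟨γ, hγ, h⟩
    rwa [← mapGL_injective h]
  · intro h
    exact ⟨g, h, rfl⟩

/-- The class of `g ∈ SL(2,ℤ)` in `SL(2,ℤ)/Γ₀(N)` (in the `GL(2,ℝ)` model `Q0 N`). -/
noncomputable def mkQ0 (N : ℕ) (g : SL(2, ℤ)) : Q0 N := QuotientGroup.mk (toSL g)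

theorem mkQ0_eq_iff (N : ℕ) (g h : SL(2, ℤ)) :
    mkQ0 N g = mkQ0 N h ↔ g⁻¹ * h ∈ CongruenceSubgroup.Gamma0 N := by
  unfold mkQ0
  rw [QuotientGroup.eq, Subgroup.mem_subgroupOf, ← mapGL_mem_G0_iff]
  simp

theorem mkQ0_surjective (N : ℕ) : Function.Surjective (mkQ0 N) := by
  intro q
  induction q using QuotientGroup.induction_on with
  | H x =>
    obtain ⟨g, rfl⟩ := toSL_surjective x
    exact ⟨g, rfl⟩

theorem quotientFunc_mkQ0 (N : ℕ) (k : ℤ) {F : Type*} [FunLike F ℍ ℂ]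
    [SlashInvariantFormClass F (G0 N) k] (f : F) (g : SL(2, ℤ)) :
    SlashInvariantForm.quotientFunc f (mkQ0 N g) = (⇑f) ∣[k] g⁻¹ := by
  unfold mkQ0
  rw [SlashInvariantForm.quotientFunc_mk, ModularForm.SL_slash, coe_toSL, ← map_inv]
  rfl

/-- Inverses of the standard coset representatives of `Γ₀(p)` in `SL(2,ℤ)`: `1` and `S T^j`. -/
noncomputable def repInv (p : ℕ) : Option (Fin p) → SL(2, ℤ)
  | none => 1
  | some j => ModularGroup.S * ModularGroup.T ^ ((j : ℕ) : ℤ)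

@[simp] theorem repInv_none (p : ℕ) : repInv p none = 1 := rfl

@[simp] theorem repInv_some (p : ℕ) (j : Fin p) :
    repInv p (some j) = ModularGroup.S * ModularGroup.T ^ ((j : ℕ) : ℤ) := rfl

theorem coe_S_mul_T_zpow (n : ℤ) :
    ((ModularGroup.S * ModularGroup.T ^ n : SL(2, ℤ)) : Matrix (Fin 2) (Fin 2) ℤ) =
      !![0, -1; 1, n] := by
  rw [Matrix.SpecialLinearGroup.coe_mul, ModularGroup.coe_T_zpow, ModularGroup.coe_S]
  ext i j
  fin_cases i <;> fin_cases j <;> simp [Matrix.mul_apply, Fin.sum_univ_two]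

theorem S_mul_T_zpow_mul_apply_one_zero (n : ℤ) (g : SL(2, ℤ)) :
    (ModularGroup.S * ModularGroup.T ^ n * g) 1 0 = g 0 0 + n * g 1 0 := by
  rw [Matrix.SpecialLinearGroup.coe_mul, coe_S_mul_T_zpow]
  simp [Matrix.mul_apply, Fin.sum_univ_two]

theorem S_mul_T_zpow_inv_apply (n : ℤ) :
    ((ModularGroup.S * ModularGroup.T ^ n : SL(2, ℤ))⁻¹ : SL(2, ℤ)) 0 0 = n ∧
    ((ModularGroup.S * ModularGroup.T ^ n : SL(2, ℤ))⁻¹ : SL(2, ℤ)) 1 0 = -1 := by
  rw [Matrix.SpecialLinearGroup.coe_inv, coe_S_mul_T_zpow, Matrix.adjugate_fin_two_of]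
  simp

theorem repInv_injective_aux (p : ℕ) [hp : Fact p.Prime] (a b : Option (Fin p))
    (h : repInv p a * (repInv p b)⁻¹ ∈ CongruenceSubgroup.Gamma0 p) : a = b := by
  rw [CongruenceSubgroup.Gamma0_mem, ZMod.intCast_zmod_eq_zero_iff_dvd] at h
  have hp1 : ¬ (p : ℤ) ∣ 1 := by
    intro h1
    have := Int.natCast_dvd_natCast.mp (by simpa using h1 : ((p : ℕ) : ℤ) ∣ ((1 : ℕ) : ℤ))
    exact hp.out.one_lt.ne' (Nat.dvd_one.mp this)
  rcases a with _ | i <;> rcases b with _ | j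
  · rfl
  · exfalso
    rw [repInv_none, one_mul, repInv_some, (S_mul_T_zpow_inv_apply _).2] at h
    exact hp1 ((dvd_neg).mp h)
  · exfalso
    rw [repInv_none, inv_one, mul_one, repInv_some, coe_S_mul_T_zpow] at h
    simp at h
    exact hp1 h
  · rw [repInv_some, repInv_some, S_mul_T_zpow_mul_apply_one_zero,
      (S_mul_T_zpow_inv_apply _).1, (S_mul_T_zpow_inv_apply _).2] at h
    have h' : (p : ℤ) ∣ (j : ℤ) - (i : ℤ) := by
      have : ((j : ℕ) : ℤ) + ((i : ℕ) : ℤ) * -1 = (j : ℤ) - (i : ℤ) := by ring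
      rwa [this] at h
    have hij : ((i : ℕ) : ℤ) ≡ ((j : ℕ) : ℤ) [ZMOD (p : ℤ)] := Int.modEq_iff_dvd.mpr h'
    have hh := Nat.ModEq.eq_of_lt_of_lt (Int.natCast_modEq_iff.mp hij) i.isLt j.isLt
    rw [Fin.ext hh]

theorem exists_repInv_mul_mem (p : ℕ) [hp : Fact p.Prime] (g : SL(2, ℤ)) :
    ∃ a : Option (Fin p), repInv p a * g ∈ CongruenceSubgroup.Gamma0 p := by
  by_cases h : ((g 1 0 : ℤ) : ZMod p) = 0
  · exact ⟨none, by rw [repInv_none, one_mul, CongruenceSubgroup.Gamma0_mem]; exact h⟩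
  · have hlt : (-((g 0 0 : ℤ) : ZMod p) * ((g 1 0 : ℤ) : ZMod p)⁻¹).val < p := ZMod.val_lt _
    refine ⟨some ⟨_, hlt⟩, ?_⟩
    rw [repInv_some, CongruenceSubgroup.Gamma0_mem, S_mul_T_zpow_mul_apply_one_zero]
    push_cast
    rw [ZMod.natCast_zmod_val]
    field_simp
    ring

/-- The explicit transversal of `SL(2,ℤ)/Γ₀(p)`: `none ↦ 1`, `some j ↦ (S T^j)⁻¹`. -/
noncomputable def cosetEquivPrime (p : ℕ) [Fact p.Prime] : Option (Fin p) ≃ Q0 p :=
  Equiv.ofBijective (fun a => mkQ0 p (repInv p a)⁻¹) <| by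
    constructor
    · intro a b h
      rw [mkQ0_eq_iff, inv_inv] at h
      exact repInv_injective_aux p a b h
    · intro q
      obtain ⟨g, rfl⟩ := mkQ0_surjective p q
      obtain ⟨a, ha⟩ := exists_repInv_mul_mem p g
      refine ⟨a, ?_⟩
      show mkQ0 p (repInv p a)⁻¹ = mkQ0 p g
      rw [mkQ0_eq_iff, inv_inv]
      exact ha

theorem cosetEquivPrime_apply (p : ℕ) [Fact p.Prime] (a : Option (Fin p)) :
    cosetEquivPrime p a = mkQ0 p (repInv p a)⁻¹ := rfl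

theorem quotientFunc_cosetEquivPrime (p : ℕ) [Fact p.Prime] (k : ℤ) {F : Type*} [FunLike F ℍ ℂ]
    [SlashInvariantFormClass F (G0 p) k] (f : F) (a : Option (Fin p)) :
    SlashInvariantForm.quotientFunc f (cosetEquivPrime p a) = (⇑f) ∣[k] (repInv p a) := by
  rw [cosetEquivPrime_apply, quotientFunc_mkQ0, inv_inv]

/-- Sum over the cosets `SL(2,ℤ)/Γ₀(p)` of any function of the coset, via the explicit
transversal. -/
theorem sum_Q0_prime (p : ℕ) [Fact p.Prime] {M : Type*} [AddCommMonoid M] [Fintype (Q0 p)]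
    (φ : Q0 p → M) :
    ∑ q : Q0 p, φ q = φ (cosetEquivPrime p none) + ∑ j : Fin p, φ (cosetEquivPrime p (some j)) := by
  rw [← (cosetEquivPrime p).sum_comp, Fintype.sum_option]

/-- Product over the cosets `SL(2,ℤ)/Γ₀(p)` of any function of the coset, via the explicit
transversal. -/
theorem prod_Q0_prime (p : ℕ) [Fact p.Prime] {M : Type*} [CommMonoid M] [Fintype (Q0 p)]
    (φ : Q0 p → M) :
    ∏ q : Q0 p, φ q = φ (cosetEquivPrime p none) * ∏ j : Fin p, φ (cosetEquivPrime p (some j)) := by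
  rw [← (cosetEquivPrime p).prod_comp, Fintype.prod_option]

theorem sum_quotientFunc_prime (p : ℕ) [Fact p.Prime] (k : ℤ) {F : Type*} [FunLike F ℍ ℂ]
    [SlashInvariantFormClass F (G0 p) k] (f : F) [Fintype (Q0 p)] :
    ∑ q : Q0 p, SlashInvariantForm.quotientFunc f q =
      ⇑f + ∑ j : Fin p, (⇑f) ∣[k] (ModularGroup.S * ModularGroup.T ^ ((j : ℕ) : ℤ)) := by
  rw [sum_Q0_prime]
  simp only [quotientFunc_cosetEquivPrime, repInv_none, repInv_some]
  congr 1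
  exact SlashAction.slash_one k _

theorem prod_quotientFunc_prime (p : ℕ) [Fact p.Prime] (k : ℤ) {F : Type*} [FunLike F ℍ ℂ]
    [SlashInvariantFormClass F (G0 p) k] (f : F) [Fintype (Q0 p)] :
    ∏ q : Q0 p, SlashInvariantForm.quotientFunc f q =
      ⇑f * ∏ j : Fin p, (⇑f) ∣[k] (ModularGroup.S * ModularGroup.T ^ ((j : ℕ) : ℤ)) := by
  rw [prod_Q0_prime]
  simp only [quotientFunc_cosetEquivPrime, repInv_none, repInv_some]
  congr 1
  exact SlashAction.slash_one k _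

theorem coe_mapGL_apply (γ : SL(2, ℤ)) (i j : Fin 2) :
    ((mapGL ℝ γ : GL (Fin 2) ℝ) : Matrix (Fin 2) (Fin 2) ℝ) i j = ((γ i j : ℤ) : ℝ) := by
  simp [mapGL]

theorem coe_mapGL_S_mul_T_zpow (n : ℤ) :
    ((mapGL ℝ (ModularGroup.S * ModularGroup.T ^ n) : GL (Fin 2) ℝ) :
      Matrix (Fin 2) (Fin 2) ℝ) = !![0, -1; 1, (n : ℝ)] := by
  ext a b
  rw [coe_mapGL_apply, coe_S_mul_T_zpow]
  fin_cases a <;> fin_cases b <;> simp

/-- `W_p · (S T^j) = - [[1,j],[0,p]]`. -/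
theorem frickeGL_mul_S_T (p : ℕ) [NeZero p] (j : ℕ) :
    ((frickeGL p * mapGL ℝ (ModularGroup.S * ModularGroup.T ^ (j : ℤ)) : GL (Fin 2) ℝ) :
      Matrix (Fin 2) (Fin 2) ℝ) = (-1 : ℝ) • (heckeMatrix p j : Matrix (Fin 2) (Fin 2) ℝ) := by
  rw [val_heckeMatrix (NeZero.ne p), Units.val_mul, coe_mapGL_S_mul_T_zpow, val_frickeGL]
  ext a b
  fin_cases a <;> fin_cases b <;> simp [Matrix.mul_apply, Fin.sum_univ_two]

/-- `W_p · [[1,j],[0,p]] = p · (S T^j)`. -/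
theorem frickeGL_mul_heckeMatrix (p : ℕ) [NeZero p] (j : ℕ) :
    ((frickeGL p * heckeMatrix p j : GL (Fin 2) ℝ) : Matrix (Fin 2) (Fin 2) ℝ) =
      (p : ℝ) • ((mapGL ℝ (ModularGroup.S * ModularGroup.T ^ (j : ℤ)) : GL (Fin 2) ℝ) :
        Matrix (Fin 2) (Fin 2) ℝ) := by
  rw [Units.val_mul, val_heckeMatrix (NeZero.ne p), coe_mapGL_S_mul_T_zpow, val_frickeGL]
  ext a b
  fin_cases a <;> fin_cases b <;> simp [Matrix.mul_apply, Fin.sum_univ_two]

/-- `W_p² = -p`. -/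
theorem frickeGL_mul_self (p : ℕ) [NeZero p] :
    ((frickeGL p * frickeGL p : GL (Fin 2) ℝ) : Matrix (Fin 2) (Fin 2) ℝ) =
      (-(p : ℝ)) • ((1 : GL (Fin 2) ℝ) : Matrix (Fin 2) (Fin 2) ℝ) := by
  rw [Units.val_mul, val_frickeGL]
  ext a b
  fin_cases a <;> fin_cases b <;> simp [Matrix.mul_apply, Fin.sum_univ_two]

/-- In weight two, slashing by `W_p (S T^j)` is slashing by the Hecke matrix `[[1,j],[0,p]]`. -/
theorem slash_fricke_slash_S_T (p : ℕ) [NeZero p] (j : ℕ) (f : ℍ → ℂ) :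
    (f ∣[(2 : ℤ)] frickeGL p) ∣[(2 : ℤ)] (ModularGroup.S * ModularGroup.T ^ (j : ℤ)) =
      f ∣[(2 : ℤ)] heckeMatrix p j := by
  rw [ModularForm.SL_slash, ← SlashAction.slash_mul]
  exact slash_two_eq_of_smul f _ _ (-1) (by norm_num) (frickeGL_mul_S_T p j)

/-- In weight two, slashing by `W_p [[1,j],[0,p]]` is slashing by `S T^j`. -/
theorem slash_fricke_slash_heckeMatrix (p : ℕ) [NeZero p] (j : ℕ) (f : ℍ → ℂ) :
    (f ∣[(2 : ℤ)] frickeGL p) ∣[(2 : ℤ)] heckeMatrix p j =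
      f ∣[(2 : ℤ)] (ModularGroup.S * ModularGroup.T ^ (j : ℤ)) := by
  rw [ModularForm.SL_slash, ← SlashAction.slash_mul]
  exact slash_two_eq_of_smul f _ _ (p : ℝ) (by exact_mod_cast NeZero.ne p)
    (frickeGL_mul_heckeMatrix p j)

/-- In weight two the Fricke operator is an involution. -/
theorem slash_fricke_slash_fricke (p : ℕ) [NeZero p] (f : ℍ → ℂ) :
    (f ∣[(2 : ℤ)] frickeGL p) ∣[(2 : ℤ)] frickeGL p = f := by
  rw [← SlashAction.slash_mul,
    slash_two_eq_of_smul f 1 _ (-(p : ℝ)) (by simpa using NeZero.ne p) (frickeGL_mul_self p),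
    SlashAction.slash_one]

/-- **Weight 2, prime level**: the trace to level one vanishes, hence `G ∣ W_p = - U_p G`. -/
theorem fricke_add_heckeU (p : ℕ) [hp : Fact p.Prime]
    (G : ModularForm (CongruenceSubgroup.Gamma0 p) 2) :
    (⇑G ∣[(2 : ℤ)] frickeGL p) + heckeU 2 p ⇑G = 0 := by
  have h0 : ModularForm.trace 𝒮ℒ (frickeForm p 2 G) = 0 :=
    rank_zero_iff_forall_zero.mp ModularForm.levelOne_weight_two_rank_zero _
  have h1 : (⇑(ModularForm.trace 𝒮ℒ (frickeForm p 2 G)) : ℍ → ℂ) = 0 := by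
    rw [h0]; rfl
  rw [ModularForm.coe_trace] at h1
  have h2 := sum_quotientFunc_prime p 2 (frickeForm p 2 G)
  rw [coe_frickeForm] at h2
  rw [← h1, heckeU_def, Finset.sum_range]
  convert h2.symm using 2
  · refine Finset.sum_congr rfl fun j _ => ?_
    exact (slash_fricke_slash_S_T p j ⇑G).symm
  

theorem fricke_eq_neg_heckeU (p : ℕ) [hp : Fact p.Prime]
    (G : ModularForm (CongruenceSubgroup.Gamma0 p) 2) :
    ⇑G ∣[(2 : ℤ)] frickeGL p = - heckeU 2 p ⇑G :=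
  eq_neg_of_add_eq_zero_left (fricke_add_heckeU p G)

/-- **Weight 2, prime level**: the expansion at the cusp `0`:
`G ∣ (S T^j) = - (U_p G) ∣ [[1,j],[0,p]]`. -/
theorem slash_S_mul_T_zpow (p : ℕ) [hp : Fact p.Prime]
    (G : ModularForm (CongruenceSubgroup.Gamma0 p) 2) (j : ℕ) :
    ⇑G ∣[(2 : ℤ)] (ModularGroup.S * ModularGroup.T ^ (j : ℤ)) =
      - ((heckeU 2 p ⇑G) ∣[(2 : ℤ)] heckeMatrix p j) := by
  rw [← slash_fricke_slash_heckeMatrix p j ⇑G, fricke_eq_neg_heckeU p G, SlashAction.neg_slash]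

/-- Pointwise form: `(G ∣ S T^j)(τ) = -(1/p) (U_p G)((τ + j)/p)`. -/
theorem slash_S_mul_T_zpow_apply (p : ℕ) [hp : Fact p.Prime]
    (G : ModularForm (CongruenceSubgroup.Gamma0 p) 2) (j : ℕ) (τ : ℍ) :
    (⇑G ∣[(2 : ℤ)] (ModularGroup.S * ModularGroup.T ^ (j : ℤ))) τ =
      - ((p : ℂ)⁻¹ * heckeU 2 p ⇑G (heckeMatrix p j • τ)) := by
  rw [slash_S_mul_T_zpow, Pi.neg_apply, slash_heckeMatrix_apply 2 hp.out.ne_zero]

/-- **Weight 2, prime level**: `U_p² = 1`. -/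
theorem heckeU_heckeU_weight_two (p : ℕ) [hp : Fact p.Prime]
    (G : ModularForm (CongruenceSubgroup.Gamma0 p) 2) :
    heckeU 2 p (heckeU 2 p ⇑G) = ⇑G := by
  have h1 := fricke_eq_neg_heckeU p (ModularForm.heckeULin 2 (dvd_refl p) G)
  rw [ModularForm.coe_heckeULin_apply] at h1
  have h2 := slash_fricke_slash_fricke p ⇑G
  rw [fricke_eq_neg_heckeU p G, SlashAction.neg_slash, h1, neg_neg] at h2
  exact h2

/-- The same statement for the linear operator `heckeULin` on `M₂(Γ₀(p))`. -/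
theorem heckeULin_heckeULin_weight_two (p : ℕ) [hp : Fact p.Prime]
    (G : ModularForm (CongruenceSubgroup.Gamma0 p) 2) :
    ModularForm.heckeULin 2 (dvd_refl p) (ModularForm.heckeULin 2 (dvd_refl p) G) = G :=
  DFunLike.coe_injective (heckeU_heckeU_weight_two p G)

/-- `frickeForm p 2 G = - U_p G` as modular forms. -/
theorem frickeForm_eq_neg_heckeULin (p : ℕ) [hp : Fact p.Prime]
    (G : ModularForm (CongruenceSubgroup.Gamma0 p) 2) :
    frickeForm p 2 G = - ModularForm.heckeULin 2 (dvd_refl p) G :=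
  DFunLike.coe_injective (by
    rw [coe_frickeForm, fricke_eq_neg_heckeU]
    rfl)

end Fermat.Agent.S16
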