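import Mathlib

/-!
# The weight-2 Eisenstein series of level `N`

`eisP N = (N • E₂(N z) - E₂(z)) / 24` as a Mathlib `ModularForm (Gamma0 N) 2`, with its
`q`-expansion.
-/

set_option autoImplicit false
set_option linter.unusedSectionVars false

open UpperHalfPlane hiding I
open ModularForm EisensteinSeries Matrix.SpecialLinearGroup Filter Complex MatrixGroups Real
open scoped Manifold

namespace Fermat.Agent.S16

noncomputable section

namespace EisP

/-- The matrix `diag(N, 1)` as an element of `GL₂(ℝ)`. -/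
def dN (N : ℕ) [NeZero N] : GL (Fin 2) ℝ :=
  Matrix.GeneralLinearGroup.mkOfDetNeZero !![(N : ℝ), 0; 0, 1]
    (by simpa [Matrix.det_fin_two] using NeZero.ne N)

variable (N : ℕ) [NeZero N]

lemma dN_det : (dN N).det.val = (N : ℝ) := by
  simp [dN, Matrix.GeneralLinearGroup.mkOfDetNeZero, Matrix.det_fin_two]

lemma dN_det_pos : 0 < (dN N).det.val := by
  rw [dN_det]; exact_mod_cast Nat.pos_of_ne_zero (NeZero.ne N)

lemma dN_10 : (dN N) 1 0 = 0 := by
  simp [dN, Matrix.GeneralLinearGroup.mkOfDetNeZero]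

lemma dN_smul_coe (z : ℍ) : ((dN N • z : ℍ) : ℂ) = (N : ℂ) * z := by
  rw [UpperHalfPlane.coe_smul_of_det_pos (dN_det_pos N)]
  simp [num, denom, dN, Matrix.GeneralLinearGroup.mkOfDetNeZero]

lemma dN_denom (z : ℍ) : denom (dN N) z = 1 := by
  simp [denom, dN, Matrix.GeneralLinearGroup.mkOfDetNeZero]

lemma dN_det_pos' : 0 < (dN N : Matrix (Fin 2) (Fin 2) ℝ).det := by
  have := dN_det_pos N
  simpa using this

lemma slash_dN_apply (f : ℍ → ℂ) (z : ℍ) :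
    (f ∣[(2 : ℤ)] dN N) z = (N : ℂ) * f (dN N • z) := by
  rw [ModularForm.slash_apply, dN_denom, dN_det]
  simp [σ, dN_det_pos' N, mul_comm]

/-- The conjugate `diag(N,1) γ diag(N,1)⁻¹` of an element of `Γ₀(N)`. -/
def conjG (γ : SL(2, ℤ)) (c' : ℤ) (hc : γ 1 0 = N * c') : SL(2, ℤ) :=
  ⟨!![γ 0 0, N * γ 0 1; c', γ 1 1], by
    have h := γ.det_coe
    rw [Matrix.det_fin_two] at h
    rw [Matrix.det_fin_two_of]
    rw [hc] at h
    linear_combination h⟩

lemma mapGL_entry (g : SL(2, ℤ)) (i j : Fin 2) :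
    ((g : GL (Fin 2) ℝ) : Matrix (Fin 2) (Fin 2) ℝ) i j = ((g i j : ℤ) : ℝ) := by
  simp

lemma conjG_00 (γ : SL(2, ℤ)) (c' : ℤ) (hc : γ 1 0 = N * c') :
    (conjG N γ c' hc) 0 0 = γ 0 0 := rfl
lemma conjG_01 (γ : SL(2, ℤ)) (c' : ℤ) (hc : γ 1 0 = N * c') :
    (conjG N γ c' hc) 0 1 = N * γ 0 1 := rfl
lemma conjG_10 (γ : SL(2, ℤ)) (c' : ℤ) (hc : γ 1 0 = N * c') :
    (conjG N γ c' hc) 1 0 = c' := rfl
lemma conjG_11 (γ : SL(2, ℤ)) (c' : ℤ) (hc : γ 1 0 = N * c') :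
    (conjG N γ c' hc) 1 1 = γ 1 1 := rfl

lemma dN_mul_eq (γ : SL(2, ℤ)) (c' : ℤ) (hc : γ 1 0 = N * c') :
    dN N * (γ : GL (Fin 2) ℝ) = ((conjG N γ c' hc : SL(2, ℤ)) : GL (Fin 2) ℝ) * dN N := by
  apply Matrix.GeneralLinearGroup.ext
  intro i j
  simp only [Matrix.GeneralLinearGroup.coe_mul, Matrix.mul_apply, Fin.sum_univ_two, mapGL_entry]
  fin_cases i <;> fin_cases j <;>
    simp [dN, Matrix.GeneralLinearGroup.mkOfDetNeZero, conjG_00, conjG_01, conjG_10, conjG_11,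
      hc, mul_comm]

lemma D2_slash_dN (γ : SL(2, ℤ)) (c' : ℤ) (hc : γ 1 0 = N * c') :
    (D2 (conjG N γ c' hc)) ∣[(2 : ℤ)] dN N = D2 γ := by
  ext z
  rw [slash_dN_apply]
  simp only [D2]
  have h1 : denom (conjG N γ c' hc) ((dN N • z : ℍ) : ℂ) = denom γ z := by
    rw [dN_smul_coe]
    simp only [denom, mapGL_entry, conjG_10, conjG_11, hc]
    push_cast
    ring
  rw [h1, conjG_10, hc]
  push_cast
  ring

/-- The function `z ↦ N * E₂(N z) - E₂(z)`. -/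
def eisFun : ℍ → ℂ := E2 ∣[(2 : ℤ)] dN N - E2

lemma eisFun_apply (z : ℍ) : eisFun N z = (N : ℂ) * E2 (dN N • z) - E2 z := by
  simp [eisFun, slash_dN_apply]

lemma E2_dN_slash (γ : SL(2, ℤ)) (c' : ℤ) (hc : γ 1 0 = N * c') :
    (E2 ∣[(2 : ℤ)] dN N) ∣[(2 : ℤ)] γ =
      E2 ∣[(2 : ℤ)] dN N - (1 / (2 * riemannZeta 2)) • D2 γ := by
  rw [SL_slash, ← SlashAction.slash_mul, dN_mul_eq N γ c' hc, SlashAction.slash_mul, ← SL_slash,
    E2_slash_action, sub_eq_add_neg, SlashAction.add_slash, SlashAction.neg_slash,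
    ← sub_eq_add_neg]
  congr 1
  ext z
  rw [slash_dN_apply]
  have := congrFun (D2_slash_dN N γ c' hc) z
  rw [slash_dN_apply] at this
  simp only [Pi.smul_apply, smul_eq_mul]
  rw [← this]
  ring

lemma eisFun_slash (γ : SL(2, ℤ)) (hγ : γ ∈ CongruenceSubgroup.Gamma0 N) :
    eisFun N ∣[(2 : ℤ)] γ = eisFun N := by
  have hdvd : (N : ℤ) ∣ γ 1 0 := by
    rw [CongruenceSubgroup.Gamma0_mem] at hγ
    exact (ZMod.intCast_zmod_eq_zero_iff_dvd _ _).mp hγ
  obtain ⟨c', hc⟩ := hdvd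
  rw [eisFun, sub_eq_add_neg, SlashAction.add_slash, SlashAction.neg_slash, E2_dN_slash N γ c' hc,
    E2_slash_action]
  abel

lemma eisFun_mdiff : MDiff (eisFun N) := by
  unfold eisFun
  exact (E2_mdifferentiable.slash 2 (dN N)).sub E2_mdifferentiable

lemma isBoundedAtImInfty_D2 (γ : SL(2, ℤ)) : IsBoundedAtImInfty (D2 γ) := by
  rw [UpperHalfPlane.isBoundedAtImInfty_iff]
  refine ⟨2 * π, 1, fun z hz => ?_⟩
  simp only [D2]
  by_cases hc : γ 1 0 = 0
  · simp [hc, Real.pi_pos.le]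
  · have hc' : (1 : ℝ) ≤ |((γ 1 0 : ℤ) : ℝ)| := by
      have : (1 : ℤ) ≤ |γ 1 0| := Int.one_le_abs hc
      exact_mod_cast this
    have hden : (1 : ℝ) * |((γ 1 0 : ℤ) : ℝ)| ≤ ‖denom γ z‖ := by
      have h1 : |(denom γ z).im| ≤ ‖denom γ z‖ := Complex.abs_im_le_norm _
      have h2 : (denom γ z).im = ((γ 1 0 : ℤ) : ℝ) * z.im := by
        simp [denom, mapGL_entry]
      rw [h2, abs_mul, abs_of_pos z.im_pos] at h1
      calc (1 : ℝ) * |((γ 1 0 : ℤ) : ℝ)| ≤ z.im * |((γ 1 0 : ℤ) : ℝ)| := by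
            exact mul_le_mul_of_nonneg_right hz (abs_nonneg _)
        _ = |((γ 1 0 : ℤ) : ℝ)| * z.im := mul_comm _ _
        _ ≤ _ := h1
    have hpos : 0 < ‖denom γ z‖ := by linarith
    rw [norm_div, div_le_iff₀ hpos]
    have hnum : ‖2 * (π : ℂ) * I * ((γ 1 0 : ℤ) : ℂ)‖ = 2 * π * |((γ 1 0 : ℤ) : ℝ)| := by
      simp [abs_of_pos Real.pi_pos]
    rw [hnum]
    have := mul_le_mul_of_nonneg_left hden (by positivity : (0 : ℝ) ≤ 2 * π)
    linarith

lemma E2_isBoundedAt {c : OnePoint ℝ} (hc : IsCusp c 𝒮ℒ) : c.IsBoundedAt E2 2 := by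
  rw [OnePoint.isBoundedAt_iff_forall_SL2Z hc]
  intro γ _
  rw [E2_slash_action]
  exact isBoundedAtImInfty_E2.sub ((isBoundedAtImInfty_D2 γ).const_smul_left _)

lemma isCusp_dN_smul {c : OnePoint ℝ} (hc : IsCusp c 𝒮ℒ) : IsCusp (dN N • c) 𝒮ℒ := by
  rw [isCusp_SL2Z_iff] at hc ⊢
  obtain ⟨q, rfl⟩ := hc
  cases q with
  | infty =>
    refine ⟨OnePoint.infty, ?_⟩
    simp [OnePoint.smul_infty_eq_ite, dN_10]
  | coe r =>
    refine ⟨((N : ℚ) * r : ℚ), ?_⟩
    simp [OnePoint.smul_some_eq_ite, dN, Matrix.GeneralLinearGroup.mkOfDetNeZero]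

lemma eisFun_isBoundedAt {c : OnePoint ℝ} (hc : IsCusp c 𝒮ℒ) : c.IsBoundedAt (eisFun N) 2 := by
  have h1 : c.IsBoundedAt (E2 ∣[(2 : ℤ)] dN N) 2 :=
    OnePoint.IsBoundedAt.smul_iff.mp (E2_isBoundedAt (isCusp_dN_smul N hc))
  have h2 : c.IsBoundedAt E2 2 := E2_isBoundedAt hc
  intro g hg
  have e : eisFun N ∣[(2 : ℤ)] g = (E2 ∣[(2 : ℤ)] dN N) ∣[(2 : ℤ)] g - E2 ∣[(2 : ℤ)] g := by
    rw [eisFun, sub_eq_add_neg, SlashAction.add_slash, SlashAction.neg_slash, sub_eq_add_neg]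
  rw [e]
  exact (h1 g hg).sub (h2 g hg)

end EisP

open EisP in
/-- The weight-2 Eisenstein series of level `N`: `(N * E₂(N z) - E₂(z)) / 24`. -/
def eisP (N : ℕ) [NeZero N] : ModularForm (CongruenceSubgroup.Gamma0 N) 2 where
  toFun := (24 : ℂ)⁻¹ • eisFun N
  slash_action_eq' := by
    intro γ hγ
    obtain ⟨γ₀, hγ₀, rfl⟩ := Subgroup.mem_map.mp hγ
    have h := eisFun_slash N γ₀ hγ₀
    rw [SL_slash] at h
    have h2 : ((24 : ℂ)⁻¹ • eisFun N) ∣[(2 : ℤ)] (mapGL ℝ γ₀) =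
        (24 : ℂ)⁻¹ • (eisFun N ∣[(2 : ℤ)] (mapGL ℝ γ₀)) := by
      rw [ModularForm.smul_slash]
      simp [σ]
    rw [h2]
    exact congrArg _ h
  holo' := (eisFun_mdiff N).const_smul _
  bdd_at_cusps' := by
    intro c hc
    rw [Subgroup.IsArithmetic.isCusp_iff_isCusp_SL2Z] at hc
    intro g hg
    have h := eisFun_isBoundedAt N hc g hg
    have h2 : ((24 : ℂ)⁻¹ • eisFun N) ∣[(2 : ℤ)] g =
        (σ g (24 : ℂ)⁻¹) • (eisFun N ∣[(2 : ℤ)] g) := by
      rw [ModularForm.smul_slash]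
    show IsBoundedAtImInfty (((24 : ℂ)⁻¹ • eisFun N) ∣[(2 : ℤ)] g)
    rw [h2]
    exact h.const_smul_left _


open ArithmeticFunction in
/-- The `q`-expansion coefficients of `eisP N`. -/
def eisCoeff (N : ℕ) (m : ℕ) : ℂ :=
  if m = 0 then ((N : ℂ) - 1) / 24
  else (sigma 1 m : ℂ) - (if N ∣ m then (N : ℂ) * (sigma 1 (m / N) : ℂ) else 0)

variable (N : ℕ) [NeZero N]

lemma eisP_apply (z : ℍ) :
    eisP N z = ((N : ℂ) * E2 (EisP.dN N • z) - E2 z) / 24 := by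
  show ((24 : ℂ)⁻¹ • EisP.eisFun N) z = _
  rw [Pi.smul_apply, EisP.eisFun_apply, smul_eq_mul]
  ring

open ArithmeticFunction in
lemma hasSum_eisP (τ : ℍ) :
    HasSum (fun m : ℕ ↦ eisCoeff N m • Function.Periodic.qParam 1 τ ^ m) (eisP N τ) := by
  set q : ℂ := Function.Periodic.qParam 1 τ with hq
  have hq1 : cexp (2 * π * I * τ) = q := by
    simp [hq, Function.Periodic.qParam]
  have hqN : cexp (2 * π * I * ((EisP.dN N • τ : ℍ) : ℂ)) = q ^ N := by
    rw [EisP.dN_smul_coe, ← hq1, ← Complex.exp_nat_mul]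
    congr 1
    ring
  have h1 := hasSum_qExpansion_E2 (z := τ)
  rw [hq1] at h1
  have h2 := hasSum_qExpansion_E2 (z := EisP.dN N • τ)
  rw [hqN] at h2
  -- reindex along `m ↦ N * m`
  have hinj : Function.Injective (fun m : ℕ => N * m) :=
    fun a b hab => Nat.eq_of_mul_eq_mul_left (Nat.pos_of_ne_zero (NeZero.ne N)) hab
  set a : ℕ → ℂ := fun m => if m = 0 then 1 else -24 * (sigma 1 m : ℂ) with ha
  have h3 : HasSum (fun n : ℕ => if N ∣ n then a (n / N) • q ^ n else 0)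
      (E2 (EisP.dN N • τ)) := by
    rw [← hinj.hasSum_iff]
    · convert h2 using 2 with m
      simp only [Function.comp_apply, dvd_mul_right, if_true,
        Nat.mul_div_cancel_left _ (Nat.pos_of_ne_zero (NeZero.ne N)), ha, pow_mul]
    · intro n hn
      rw [if_neg]
      rintro ⟨k, rfl⟩
      exact hn ⟨k, rfl⟩
  have h4 := ((h3.mul_left (N : ℂ)).sub h1).mul_left (24 : ℂ)⁻¹
  have hval : eisP N τ = (24 : ℂ)⁻¹ * ((N : ℂ) * E2 (EisP.dN N • τ) - E2 τ) := by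
    rw [eisP_apply]; ring
  have hfun : (fun m : ℕ ↦ eisCoeff N m • q ^ m) = fun i : ℕ =>
      (24 : ℂ)⁻¹ * (((N : ℂ) * if N ∣ i then a (i / N) • q ^ i else 0) -
        (if i = 0 then (1 : ℂ) else -24 * (sigma 1 i : ℂ)) • q ^ i) := by
    funext n
    simp only [eisCoeff, ha, smul_eq_mul]
    by_cases hn : n = 0
    · subst hn
      simp
      ring
    · by_cases hd : N ∣ n
      · have hnN : n / N ≠ 0 := by
          obtain ⟨k, rfl⟩ := hd
          rw [Nat.mul_div_cancel_left _ (Nat.pos_of_ne_zero (NeZero.ne N))]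
          rintro rfl
          exact hn (by simp)
        simp only [hn, hd, hnN, if_true, if_false]
        ring
      · simp only [hn, hd, if_false]
        ring
  rw [hval, hfun]
  exact h4

theorem eisP_coeff (m : ℕ) :
    (UpperHalfPlane.qExpansion 1 (eisP N)).coeff m = eisCoeff N m :=
  (ModularFormClass.qExpansion_coeff_unique one_pos (by simp) (hasSum_eisP N) m).symm

theorem eisP_coeff_zero :
    (UpperHalfPlane.qExpansion 1 (eisP N)).coeff 0 = ((N : ℂ) - 1) / 24 := by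
  rw [eisP_coeff]; simp [eisCoeff]


omit [NeZero N] in
/-- The divisors of `n` that are divisible by `N` sum to `N * σ(n / N)` (or to `0` if `N ∤ n`). -/
lemma EisP.sum_divisors_dvd (hN : N ≠ 0) (n : ℕ) (hn : n ≠ 0) :
    ∑ d ∈ n.divisors with N ∣ d, d = if N ∣ n then N * ArithmeticFunction.sigma 1 (n / N) else 0 := by
  by_cases hd : N ∣ n
  · rw [if_pos hd]
    obtain ⟨k, rfl⟩ := hd
    have hk : k ≠ 0 := by rintro rfl; exact hn (by simp)
    rw [Nat.mul_div_cancel_left _ (Nat.pos_of_ne_zero hN), ArithmeticFunction.sigma_one_apply,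
      Finset.mul_sum]
    have himg : (N * k).divisors.filter (fun d => N ∣ d) = k.divisors.image (fun e => N * e) := by
      ext d
      simp only [Finset.mem_filter, Nat.mem_divisors, Finset.mem_image]
      constructor
      · rintro ⟨⟨hdvd, -⟩, e, rfl⟩
        exact ⟨e, ⟨(Nat.mul_dvd_mul_iff_left (Nat.pos_of_ne_zero hN)).mp hdvd, hk⟩, rfl⟩
      · rintro ⟨e, ⟨hek, -⟩, rfl⟩
        exact ⟨⟨Nat.mul_dvd_mul_left N hek, hn⟩, dvd_mul_right N e⟩
    rw [himg, Finset.sum_image]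
    intro x _ y _ hxy
    exact Nat.eq_of_mul_eq_mul_left (Nat.pos_of_ne_zero hN) hxy
  · rw [if_neg hd]
    apply Finset.sum_eq_zero
    intro d hd'
    rw [Finset.mem_filter, Nat.mem_divisors] at hd'
    exact absurd (dvd_trans hd'.2 hd'.1.1) hd

/-- For `n ≠ 0`, the `n`-th `q`-expansion coefficient of `eisP N` is the sum of the divisors of
`n` that are not divisible by `N`. -/
theorem eisP_coeff_of_ne_zero {n : ℕ} (hn : n ≠ 0) :
    (UpperHalfPlane.qExpansion 1 (eisP N)).coeff n = ∑ d ∈ n.divisors with ¬ N ∣ d, (d : ℂ) := by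
  rw [eisP_coeff, eisCoeff, if_neg hn]
  have h1 : (ArithmeticFunction.sigma 1 n : ℕ) =
      ∑ d ∈ n.divisors with N ∣ d, d + ∑ d ∈ n.divisors with ¬ N ∣ d, d := by
    rw [ArithmeticFunction.sigma_one_apply, Finset.sum_filter_add_sum_filter_not]
  have h2 := EisP.sum_divisors_dvd N (NeZero.ne N) n hn
  have h3 : ((ArithmeticFunction.sigma 1 n : ℕ) : ℂ) =
      (if N ∣ n then (N : ℂ) * (ArithmeticFunction.sigma 1 (n / N) : ℂ) else 0) +
        ∑ d ∈ n.divisors with ¬ N ∣ d, (d : ℂ) := by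
    rw [h1, h2]
    push_cast
    split_ifs <;> simp
  rw [h3]
  ring

/-- For `n ≠ 0` the `n`-th coefficient of `eisP N` is (the cast of) a natural number. -/
theorem eisP_coeff_of_ne_zero_nat {n : ℕ} (hn : n ≠ 0) :
    (UpperHalfPlane.qExpansion 1 (eisP N)).coeff n =
      ((∑ d ∈ n.divisors with ¬ N ∣ d, d : ℕ) : ℂ) := by
  rw [eisP_coeff_of_ne_zero N hn]
  push_cast
  rfl

/-- The coefficient of `q` in `eisP N` is `1` (for `N ≠ 1`). -/
theorem eisP_coeff_one (hN : N ≠ 1) :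
    (UpperHalfPlane.qExpansion 1 (eisP N)).coeff 1 = 1 := by
  rw [eisP_coeff_of_ne_zero N one_ne_zero]
  have h : ¬ N ∣ 1 := fun h => hN (Nat.dvd_one.mp h)
  simp [Finset.filter_singleton, h]

/-- The prime-level form of `eisP_coeff_of_ne_zero`. -/
theorem eisP_coeff_prime (p : ℕ) [Fact p.Prime] {n : ℕ} (hn : n ≠ 0) :
    haveI : NeZero p := ⟨(Fact.out : p.Prime).ne_zero⟩
    (UpperHalfPlane.qExpansion 1 (eisP p)).coeff n = ∑ d ∈ n.divisors with ¬ p ∣ d, (d : ℂ) := by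
  have : NeZero p := ⟨(Fact.out : p.Prime).ne_zero⟩
  exact eisP_coeff_of_ne_zero p hn

end

end Fermat.Agent.S16
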