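import Fermat.Agent.S16.Iface
import Fermat.Agent.S16.EisP
import Fermat.Prelude.Thm_CongruenceSubgroup_one_mem_strictPeriods_Gamma0

/-!
# P-EIS (S16), interface AN-EISP

`ifaceEisP : IfaceEisP p`: the Eisenstein series `E = p E₂(pz) - E₂(z) = (p - 1) + 24 δ` is a
modular form of weight 2 on `Γ₀(p)`.  (`E = 24 • eisP p` with `eisP` from `EisP.lean`.)
-/

set_option autoImplicit false

open UpperHalfPlane ModularForm ModularFormClass MatrixGroups CongruenceSubgroup

namespace Fermat.Agent.S16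

/-- The coefficients of `eisP p` in terms of `sigmaP`. -/
theorem eisP_coeff_sigmaP (p : ℕ) [NeZero p] {k : ℕ} (hk : 1 ≤ k) :
    PowerSeries.coeff k (qExpansion 1 (eisP p)) = (sigmaP p k : ℂ) := by
  rw [eisP_coeff_of_ne_zero_nat p (by omega : k ≠ 0)]
  rfl

/-- **AN-EISP**. -/
theorem ifaceEisP (p : ℕ) [NeZero p] : IfaceEisP p := by
  have hq : qExpansion 1 (⇑((24 : ℂ) • eisP p) : ℍ → ℂ) = (24 : ℂ) • qExpansion 1 (eisP p) := by
    have h2 := ModularFormClass.qExpansion_smul one_pos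
      (CongruenceSubgroup.one_mem_strictPeriods_Gamma0 p) (24 : ℂ) (eisP p)
    have e2 : (⇑((24 : ℂ) • eisP p) : ℍ → ℂ) = (24 : ℂ) • ⇑(eisP p) := by
      ext z; simp
    rw [e2, h2]
  refine ⟨(24 : ℂ) • eisP p, ?_, fun k hk => ?_⟩
  · rw [hq, PowerSeries.coeff_smul, eisP_coeff_zero]
    simp
    ring
  · rw [hq, PowerSeries.coeff_smul, eisP_coeff_sigmaP p hk]
    simp

end Fermat.Agent.S16
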