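import Fermat.Agent.S16.Assembly
import Fermat.Agent.S16.Glue.Main
import Fermat.Agent.S16.Glue.SigmaP
import Fermat.Agent.S16.Glue.LBForm

/-!
# P-EIS (S16): final reduction

`s16_final`: the frozen statement from
* the lower bound input `IfaceTheta p` (only when `n ≠ 1`) together with `IfaceEisP p`,
  `IfaceCusp2 p`, and
* the form-level upper bound `NoCongForm p ℓ` for all primes `ℓ`,
using the landed glue (`Glue.glue_card_eq`, `Glue.glue_upper`) and `ifaceLBForm`.
-/

set_option autoImplicit false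

open UpperHalfPlane ModularForm ModularFormClass MatrixGroups CongruenceSubgroup

namespace Fermat.Agent.S16

noncomputable section

/-- `σ'` is an Eisenstein-type sequence of level `p`. -/
theorem fin_glueSeq (p : ℕ) [Fact p.Prime] : Glue.GlueSeq p (fun k => (sigmaP p k : ℤ)) := by
  have hp : p.Prime := Fact.out
  refine ⟨?_, ?_, ?_⟩
  · simp [SigmaP.sigmaP_one p hp]
  · intro q hq hqp k _
    have : q = p := (Nat.prime_dvd_prime_iff_eq hq hp).mp hqp
    subst this
    simp [SigmaP.sigmaP_mul_self q hp k]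
  · intro ℓ hℓ hℓp k hk
    have hne : ℓ ≠ p := fun h => hℓp (h ▸ dvd_rfl)
    have := SigmaP.sigmaP_mul_prime p ℓ hp hℓ hne k hk
    have h2 : ((sigmaP p (k * ℓ) + (if ℓ ∣ k then ℓ * sigmaP p (k / ℓ) else 0) : ℕ) : ℤ) =
        (((1 + ℓ) * sigmaP p k : ℕ) : ℤ) := by rw [this]
    push_cast at h2
    rw [← h2]

/-- The upper-bound hypothesis of the glue, from `NoCongForm`. -/
theorem fin_hB (p : ℕ) [Fact p.Prime] (hN : ∀ ℓ : ℕ, ℓ.Prime → NoCongForm p ℓ)
    (hn : ModularCurve.eisensteinNumerator p ≠ 0) :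
    ∀ M : ℕ, M ≠ 0 → ∀ f : ↥(CuspForm.intLattice p 2),
      (∀ k : ℕ, 1 ≤ k → (M : ℤ) ∣ Glue.glueCoeff p k f - (sigmaP p k : ℤ)) →
      M ∣ ModularCurve.eisensteinNumerator p := by
  intro M hM f hf
  by_contra hnd
  -- some prime has larger valuation in `M`
  have hfac : ¬ M.factorization ≤ (ModularCurve.eisensteinNumerator p).factorization :=
    fun h => hnd ((Nat.factorization_le_iff_dvd hM hn).mp h)
  rw [Finsupp.le_def] at hfac
  push Not at hfac
  obtain ⟨ℓ, hℓ⟩ := hfac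
  have hℓM : ℓ ∈ M.primeFactors := by
    rw [← Nat.support_factorization, Finsupp.mem_support_iff]
    omega
  have hℓp : ℓ.Prime := Nat.prime_of_mem_primeFactors hℓM
  rw [Nat.factorization_def _ hℓp, Nat.factorization_def _ hℓp] at hℓ
  set a := padicValNat ℓ (ModularCurve.eisensteinNumerator p) + 1 with ha
  have hdvd : ℓ ^ a ∣ M := by
    haveI := Fact.mk hℓp
    exact (padicValNat_dvd_iff_le hM).mpr (by omega)
  obtain ⟨c, hc⟩ := hdvd
  refine hN ℓ hℓp ⟨f.1, fun k hk => ?_⟩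
  obtain ⟨d, hd⟩ := hf k hk
  refine ⟨(c : ℤ) * d, ?_⟩
  have hspec := Glue.glueCoeff_spec p k f
  have hq : PowerSeries.coeff k (qExpansion 1 ⇑(f : CuspForm (Gamma0 p) 2)) =
      ((Glue.glueCoeff p k f : ℤ) : ℂ) := by
    rw [hspec]
    rfl
  rw [hq]
  have : Glue.glueCoeff p k f = (sigmaP p k : ℤ) + M * d := by linarith
  rw [this, hc]
  push_cast
  ring

/-- **Final reduction.** -/
theorem s16_final (p : ℕ) [Fact p.Prime]
    (hEis : IfaceEisP p) (hTheta : ModularCurve.eisensteinNumerator p ≠ 1 → IfaceTheta p)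
    (hCusp2 : IfaceCusp2 p) (hN : ∀ ℓ : ℕ, ℓ.Prime → NoCongForm p ℓ) :
    Nat.card (↥(CuspForm.heckeLatticeAlgebra p ∅) ⧸
        Ideal.map ((CuspForm.latticeRestrictHom p ∅).toRingHom.comp (CuspForm.heckeEvalForms p 2))
          (ModularCurve.eisensteinIdeal p)) =
      ModularCurve.eisensteinNumerator p := by
  have hp : p.Prime := Fact.out
  have hn : ModularCurve.eisensteinNumerator p ≠ 0 := by
    unfold ModularCurve.eisensteinNumerator
    have h2 := hp.two_le
    have hg : Nat.gcd (p - 1) 12 ∣ p - 1 := Nat.gcd_dvd_left _ _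
    have hpos : 0 < p - 1 := by omega
    exact Nat.ne_of_gt (Nat.div_pos (Nat.le_of_dvd hpos hg) (Nat.gcd_pos_of_pos_left _ hpos))
  refine Glue.glue_card_eq p _ ?_ (Glue.glue_upper p (fin_glueSeq p) _ hn (fin_hB p hN hn))
  -- lower bound
  by_cases h1 : ModularCurve.eisensteinNumerator p = 1
  · intro Q _
    rw [h1]
    simp
  · exact ifaceLBForm p (asm_lbForm_exists p hEis (hTheta h1) hCusp2)

/-- The form-level upper bound from the interfaces. -/
theorem fin_noCongForm (p : ℕ) [Fact p.Prime] (hEis : IfaceEisP p)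
    (hUBRed : ∀ ℓ : ℕ, ℓ.Prime → IfaceUBRed p ℓ) (hSmall : IfaceSmall) (hNoH : IfaceNoH) :
    ∀ ℓ : ℕ, ℓ.Prime → NoCongForm p ℓ := by
  have hp : p.Prime := Fact.out
  intro ℓ hℓ
  by_cases h5 : 5 ≤ p
  · exact hUBRed ℓ hℓ hEis (hNoH p ℓ hp hℓ h5)
  · refine hSmall p ℓ ?_ hℓ
    have h2 := hp.two_le
    have h4 : p ≠ 4 := fun h => by rw [h] at hp; exact absurd hp (by decide)
    omega

end

end Fermat.Agent.S16
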