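import Fermat.Agent.S16.Defs

/-!
# P-EIS (S16): the interfaces (one `def … : Prop` per work package of table `eis_tasks`)

Convention: a work package `X` delivers `theorem <name> … : IfaceX …` (hypothesis-free, or from
the interfaces listed in its task row).  Nothing in this file is proved here.
-/

set_option autoImplicit false

open UpperHalfPlane ModularForm ModularFormClass MatrixGroups CongruenceSubgroup

namespace Fermat.Agent.S16

noncomputable section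

/-! ## G: glue (pure algebra on the Prelude Hecke algebra) -/

/-- **G-GLUE**: lower and upper bound in Hecke form give the frozen statement. -/
def IfaceGlue (p : ℕ) [Fact p.Prime] : Prop :=
  LBHecke p → UBHecke p →
    Nat.card (↥(CuspForm.heckeLatticeAlgebra p ∅) ⧸
        Ideal.map ((CuspForm.latticeRestrictHom p ∅).toRingHom.comp (CuspForm.heckeEvalForms p 2))
          (ModularCurve.eisensteinIdeal p)) =
      ModularCurve.eisensteinNumerator p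

/-- **G-QK**: Hecke polynomials `Q_k` with `a_1(Q_k f) = a_k(f)` and `Q_k(eis) = σ'(k)`. -/
def IfaceQk (p : ℕ) [Fact p.Prime] : Prop :=
  ∃ Q : ℕ → ModularCurve.HeckeAlg, ∀ k : ℕ, 1 ≤ k →
    eisEval p (Q k) = (sigmaP p k : ℤ) ∧
    ∀ f : CuspForm (Gamma0 p) 2,
      PowerSeries.coeff 1 (qExpansion 1
        (((CuspForm.heckeEvalForms p 2 (Q k) : CuspForm.heckeAlgebra p 2 ∅) :
          Module.End ℂ (CuspForm (Gamma0 p) 2)) f)) =
      PowerSeries.coeff k (qExpansion 1 f)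

/-- **G-DUAL**: duality.  If `M ∣ Q(eis)` for all `Q` killing the lattice, then some integral
cusp form is congruent to `δ` modulo `M`. -/
def IfaceDual (p : ℕ) [Fact p.Prime] : Prop :=
  ∀ M : ℕ, 0 < M →
    (∀ Q : ModularCurve.HeckeAlg, heckePhi p Q = 0 → (M : ℤ) ∣ eisEval p Q) →
    ∃ f : CuspForm (Gamma0 p) 2, CongDelta p 1 M f

/-- **G-LBF**: an integral cusp form congruent to `24 δ` modulo `2 (p - 1)` gives the lower
bound. -/
def IfaceLBForm (p : ℕ) [Fact p.Prime] : Prop :=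
  (∃ f : CuspForm (Gamma0 p) 2, CongDelta p 24 (2 * ((p : ℤ) - 1)) f) → LBHecke p

/-- The form-level upper bound at `ℓ`: no integral cusp form is congruent to `δ` modulo
`ℓ^(v_ℓ(n)+1)`. -/
def NoCongForm (p ℓ : ℕ) : Prop :=
  ¬ ∃ f : CuspForm (Gamma0 p) 2,
    CongDelta p 1 ((ℓ : ℤ) ^ (padicValNat ℓ (ModularCurve.eisensteinNumerator p) + 1)) f

/-- **The core statement**: there is no `ℓ`-integral `H ∈ M₂(Γ₀(p))` with `H ≡ 1 mod ℓ^b`,
`b = expB p ℓ`. -/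
def NoH (p ℓ : ℕ) : Prop :=
  ¬ ∃ H : ModularForm (Gamma0 p) 2,
    PowerSeries.coeff 0 (qExpansion 1 H) = 1 ∧
    ∀ k : ℕ, 1 ≤ k → ∃ (m : ℤ) (s : ℕ), ¬ ℓ ∣ s ∧
      PowerSeries.coeff k (qExpansion 1 H) = (ℓ : ℂ) ^ expB p ℓ * (m : ℂ) / (s : ℂ)

/-- **AN-EISP**: the Eisenstein series `E = p E₂(pz) - E₂(z) = (p - 1) + 24 δ ∈ M₂(Γ₀(p))`. -/
def IfaceEisP (p : ℕ) : Prop :=
  ∃ E : ModularForm (Gamma0 p) 2,
    PowerSeries.coeff 0 (qExpansion 1 E) = (p : ℂ) - 1 ∧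
    ∀ k : ℕ, 1 ≤ k → PowerSeries.coeff k (qExpansion 1 E) = 24 * (sigmaP p k : ℂ)

/-- **G-UBRED**: `NoH` gives `NoCongForm` (via `H = (E - 24 f) / (p - 1)`). -/
def IfaceUBRed (p ℓ : ℕ) : Prop :=
  IfaceEisP p → NoH p ℓ → NoCongForm p ℓ

/-- **LB-THETA** (sub-architect helper16): one form `G ∈ M₂(Γ₀(p))` with integral
`q`-expansion, `a_0 = 1`, `G ≡ 1 mod 2`. -/
def IfaceTheta (p : ℕ) : Prop :=
  ∃ G : ModularForm (Gamma0 p) 2,
    PowerSeries.coeff 0 (qExpansion 1 G) = 1 ∧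
    ∀ k : ℕ, 1 ≤ k → ∃ r : ℤ, PowerSeries.coeff k (qExpansion 1 G) = 2 * (r : ℂ)

/-! ## AN: analytic interfaces (forms on `Γ₀(p)`, their two cusps, trace and norm) -/

/-- **AN-EXP**: every form has an expansion at the cusp `0`. -/
def IfaceExp (p : ℕ) : Prop :=
  ∀ (w : ℤ) (F : ModularForm (Gamma0 p) w), ∃ B : PowerSeries ℂ, CuspExp p w F B

/-- **AN-ALG**: closure of `FormPair` under the algebra operations; level-one forms. -/
def IfaceAlg (p : ℕ) : Prop :=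
  (∀ (w₁ w₂ : ℤ) (A₁ B₁ A₂ B₂ : PowerSeries ℂ), FormPair p w₁ A₁ B₁ → FormPair p w₂ A₂ B₂ →
      FormPair p (w₁ + w₂) (A₁ * A₂) (B₁ * B₂)) ∧
  (∀ (w : ℤ) (A₁ B₁ A₂ B₂ : PowerSeries ℂ), FormPair p w A₁ B₁ → FormPair p w A₂ B₂ →
      FormPair p w (A₁ + A₂) (B₁ + B₂)) ∧
  (∀ (w : ℤ) (c : ℂ) (A B : PowerSeries ℂ), FormPair p w A B →
      FormPair p w (c • A) (c • B)) ∧
  (∀ (w : ℤ) (N : PowerSeries ℂ), IsLevelOneQ w N → FormPair p w N (expandPS p N))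

/-- **AN-FRICKE**: the Fricke symmetry in weight 2: if `(A, B)` is a form pair then so is
`(B, p⁻² A)` (the form is `τ ↦ (F ∣ S)(pτ)`). -/
def IfaceFricke (p : ℕ) : Prop :=
  ∀ A B : PowerSeries ℂ, FormPair p 2 A B → FormPair p 2 B (((p : ℂ) ^ 2)⁻¹ • A)

/-- **AN-TRACE**: the trace to level one. -/
def IfaceTrace (p : ℕ) : Prop :=
  ∀ (w : ℤ) (A B : PowerSeries ℂ), FormPair p w A B →
    ∃ N : PowerSeries ℂ, IsLevelOneQ w N ∧
      expandPS p N = expandPS p A + ∑ j ∈ Finset.range p, PowerSeries.rescale (zetaP p ^ j) B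

/-- **AN-NORM**: the norm to level one. -/
def IfaceNorm (p : ℕ) : Prop :=
  ∀ (w : ℤ) (A B : PowerSeries ℂ), FormPair p w A B →
    ∃ N : PowerSeries ℂ, IsLevelOneQ (w * ((p : ℤ) + 1)) N ∧
      expandPS p N = expandPS p A * ∏ j ∈ Finset.range p, PowerSeries.rescale (zetaP p ^ j) B

/-- **AN-CUSP**: a form vanishing at both cusps is a cusp form. -/
def IfaceCusp (p : ℕ) : Prop :=
  ∀ (w : ℤ) (F : ModularForm (Gamma0 p) w) (B : PowerSeries ℂ), CuspExp p w F B →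
    PowerSeries.coeff 0 (qExpansion 1 F) = 0 → PowerSeries.coeff 0 B = 0 →
    ∃ f : CuspForm (Gamma0 p) w, ∀ τ : ℍ, f τ = F τ

/-! ## FP: formal consequences -/

/-- **FP-T0**: the weight-two trace facts: `B = -p⁻¹ U_p A`, and `(U_p A, -p⁻¹ A)` is again a
form pair (so `U_p U_p A = A`). -/
def IfaceT0 (p : ℕ) : Prop :=
  ∀ A B : PowerSeries ℂ, FormPair p 2 A B →
    B = (-(p : ℂ)⁻¹) • UpPS p A ∧ FormPair p 2 (UpPS p A) ((-(p : ℂ)⁻¹) • A)

/-- **FP-CUSP2**: a weight-two form on `Γ₀(p)` with `a_0 = 0` is a cusp form. -/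
def IfaceCusp2 (p : ℕ) : Prop :=
  ∀ F : ModularForm (Gamma0 p) 2, PowerSeries.coeff 0 (qExpansion 1 F) = 0 →
    ∃ f : CuspForm (Gamma0 p) 2, ∀ τ : ℍ, f τ = F τ

/-- **FP-I2**: the quadratic trace identity `p A² + U_p((U_p A)²) = (p + 1) a_0² E₄`. -/
def IfaceI2 (p : ℕ) : Prop :=
  ∀ H : ModularForm (Gamma0 p) 2,
    (p : ℂ) • (qExpansion 1 H) ^ 2 + UpPS p ((UpPS p (qExpansion 1 H)) ^ 2) =
      (((p : ℂ) + 1) * (PowerSeries.coeff 0 (qExpansion 1 H)) ^ 2) • qExpansion 1 E₄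

/-- all coefficients of `A` lie in the subring `R` -/
def InR (R : Subring ℂ) (A : PowerSeries ℂ) : Prop := ∀ n : ℕ, PowerSeries.coeff n A ∈ R

/-- `A ≡ B` modulo the ideal `I` of `R`, coefficientwise -/
def ModI (R : Subring ℂ) (I : Ideal R) (A B : PowerSeries ℂ) : Prop :=
  ∀ n : ℕ, ∃ r : R, r ∈ I ∧ PowerSeries.coeff n A - PowerSeries.coeff n B = (r : ℂ)

/-- **FP-RING**: the coefficient ring: a subring `R ⊆ ℂ` containing `ζ_p` and `ℤ_(ℓ)`, with a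
prime ideal `I` containing `ℓ`. -/
def IfaceRing (p ℓ : ℕ) : Prop :=
  ∃ (R : Subring ℂ) (I : Ideal R), I.IsPrime ∧ zetaP p ∈ R ∧
    (∀ s : ℕ, ¬ ℓ ∣ s → ((s : ℂ)⁻¹) ∈ R) ∧ ((ℓ : ℕ) : R) ∈ I

/-- **FP-NORMARG**: the norm argument (`3 ≤ p`).  If `(A, B)` is a form pair of weight
`0 ≤ w ≤ 8` with coefficients in `R`, and `B ≡ s(t^p) mod I` with `s ∈ R⟦q⟧` whose constant term
lies in `I`, then `A ≡ 0` or `s ≡ 0` modulo `I`. -/
def IfaceNormArg (p : ℕ) : Prop :=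
  3 ≤ p → ∀ (R : Subring ℂ) (I : Ideal R), I.IsPrime → zetaP p ∈ R →
    ∀ (w : ℤ) (A B s : PowerSeries ℂ), 0 ≤ w → w ≤ 8 → FormPair p w A B →
      InR R A → InR R B → InR R s →
      (∃ r : R, r ∈ I ∧ PowerSeries.coeff 0 s = (r : ℂ)) →
      ModI R I B (expandPS p s) → ModI R I A 0 ∨ ModI R I s 0

/-- **LV1**: level-one inputs: the `q`-expansions of `E₄`, `E₆`; `M₂(SL₂ℤ) = 0`;
`M₄(SL₂ℤ) = ℂ E₄`. -/
def IfaceLV1 : Prop :=
  qExpansion 1 E₄ = 1 + (240 : ℂ) • SJ 3 ∧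
  qExpansion 1 E₆ = 1 - (504 : ℂ) • SJ 5 ∧
  (∀ N : PowerSeries ℂ, IsLevelOneQ 2 N → N = 0) ∧
  (∀ N : PowerSeries ℂ, IsLevelOneQ 4 N → N = (PowerSeries.coeff 0 N) • qExpansion 1 E₄)

/-- **G-SMALL**: `S₂(Γ₀(p)) = 0` for `p = 2, 3` (Prelude Sturm bound), hence `NoCongForm`. -/
def IfaceSmall : Prop :=
  ∀ p ℓ : ℕ, p = 2 ∨ p = 3 → ℓ.Prime → NoCongForm p ℓ

/-- **C-ALL**: the six case files together: `NoH p ℓ` for all primes `5 ≤ p` and all primes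
`ℓ`. -/
def IfaceNoH : Prop :=
  ∀ p ℓ : ℕ, p.Prime → ℓ.Prime → 5 ≤ p → NoH p ℓ

end

end Fermat.Agent.S16
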