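import Mathlib

/-!
# P-EIS (S16), lower bound, analytic core (helper97): theta inversion in `n` variables

For a positive definite real symmetric matrix `A` with inverse `B`, `τ` in the upper half plane
and a complex characteristic `w`:
`∑ₓ exp(πiτ xᵀAx + 2πi x·w) = (-iτ)^{-n/2} (det A)^{-1/2} ∑_y exp(-πi (y+w)ᵀB(y+w)/τ)`
(sums over `ℤⁿ`), together with the summability of both families.

Proof: induction on `n` by completing the square in the first variable (Schur complement),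
Mathlib's one-variable `Complex.tsum_exp_neg_quadratic`, and Fubini for absolutely summable
families.
-/

set_option autoImplicit false

namespace Fermat.Agent.S16

open Complex Real

/-- `(a z)^r = a^r z^r` for a positive real `a`. -/
lemma TI97_ofReal_mul_cpow {a : ℝ} (ha : 0 < a) {z : ℂ} (hz : z ≠ 0) (r : ℂ) :
    ((a : ℂ) * z) ^ r = (a : ℂ) ^ r * z ^ r := by
  have ha' : (a : ℂ) ≠ 0 := ofReal_ne_zero.mpr ha.ne'
  rw [cpow_def_of_ne_zero (mul_ne_zero ha' hz), cpow_def_of_ne_zero ha', cpow_def_of_ne_zero hz,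
    Complex.log_ofReal_mul ha hz, ← Complex.exp_add, ofReal_log ha.le]
  congr 1
  ring

lemma TI97_sqrt_cpow {a : ℝ} (ha : 0 < a) : (a : ℂ) ^ (1 / 2 : ℂ) = (Real.sqrt a : ℂ) := by
  rw [Real.sqrt_eq_rpow, Complex.ofReal_cpow ha.le]
  norm_num

/-- One-variable theta inversion, with a positive real scale `a` and a complex shift `z`. -/
lemma TI97_one_dim {a : ℝ} (ha : 0 < a) {τ : ℂ} (hτ : 0 < τ.im) (z : ℂ) :
    ∑' n : ℤ, cexp (π * I * τ * a * (n : ℂ) ^ 2 + 2 * π * I * n * z) =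
      1 / ((-I * τ) ^ (1 / 2 : ℂ) * (Real.sqrt a : ℂ)) *
        ∑' m : ℤ, cexp (-π * I / (τ * a) * ((m : ℂ) + z) ^ 2) := by
  have hτ0 : τ ≠ 0 := by
    rintro rfl
    simp at hτ
  have ha0 : (a : ℂ) ≠ 0 := ofReal_ne_zero.mpr ha.ne'
  have hre : 0 < ((a : ℂ) * (-I * τ)).re := by
    have : ((a : ℂ) * (-I * τ)).re = a * τ.im := by
      simp [mul_re]
    rw [this]
    positivity
  have h := Complex.tsum_exp_neg_quadratic hre (I * z)
  have hl : ∀ n : ℤ, cexp (π * I * τ * a * (n : ℂ) ^ 2 + 2 * π * I * n * z) =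
      cexp (-π * ((a : ℂ) * (-I * τ)) * (n : ℂ) ^ 2 + 2 * π * (I * z) * n) := by
    intro n
    congr 1
    ring
  rw [tsum_congr hl, h]
  have hIτ : -I * τ ≠ 0 := mul_ne_zero (neg_ne_zero.mpr I_ne_zero) hτ0
  rw [TI97_ofReal_mul_cpow ha hIτ, TI97_sqrt_cpow ha, mul_comm (Real.sqrt a : ℂ)]
  congr 1
  rw [← (Equiv.neg ℤ).tsum_eq]
  refine tsum_congr fun m => ?_
  congr 1
  simp only [Equiv.neg_apply, Int.cast_neg]
  have : -(π : ℂ) / ((a : ℂ) * (-I * τ)) = -π * I / (τ * a) := by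
    field_simp
    ring_nf
    simp [I_sq]
  rw [this]
  have h2 : (-(m : ℂ) + I * (I * z)) ^ 2 = ((m : ℂ) + z) ^ 2 := by
    have : I * (I * z) = -z := by
      rw [← mul_assoc, I_mul_I]
      ring
    rw [this]
    ring
  rw [h2]

/-- Summability of the one-variable dual family. -/
lemma TI97_one_dim_summable_dual {a : ℝ} (ha : 0 < a) {τ : ℂ} (hτ : 0 < τ.im) (z : ℂ) :
    Summable (fun m : ℤ => cexp (-π * I / (τ * a) * ((m : ℂ) + z) ^ 2)) := by
  have hτ0 : τ ≠ 0 := by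
    rintro rfl
    simp at hτ
  have ha0 : (a : ℂ) ≠ 0 := ofReal_ne_zero.mpr ha.ne'
  have him : 0 < (-1 / (τ * a)).im := by
    have : (-1 / (τ * a)) = (-(1 / a : ℝ) : ℂ) * τ⁻¹ := by
      push_cast
      field_simp
    rw [this]
    simp only [mul_im, neg_re, ofReal_re, inv_im, neg_im, ofReal_im, neg_zero, zero_mul, add_zero]
    have hn : 0 < normSq τ := normSq_pos.mpr hτ0
    have : -(1 / a) * (-τ.im / normSq τ) = (1 / a) * (τ.im / normSq τ) := by ring
    rw [this]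
    positivity
  have hs := (summable_jacobiTheta₂_term_iff (-z / (τ * a)) (-1 / (τ * a))).mpr him
  have := hs.mul_left (cexp (-π * I / (τ * a) * z ^ 2))
  refine this.congr fun m => ?_
  rw [jacobiTheta₂_term, ← Complex.exp_add]
  congr 1
  field_simp
  ring



section Algebra

variable {K : Type*} [Field K] {n : ℕ}

/-- The quadratic form `u ↦ uᵀ M u`. -/
def TI97_qf (M : Matrix (Fin n) (Fin n) K) (u : Fin n → K) : K :=
  ∑ i, ∑ j, M i j * u i * u j

/-- The Schur complement of the `(0,0)` entry. -/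
def TI97_schur (M : Matrix (Fin (n + 1)) (Fin (n + 1)) K) : Matrix (Fin n) (Fin n) K :=
  fun i j => M i.succ j.succ - M 0 i.succ * M 0 j.succ / M 0 0

/-- The lower right block. -/
def TI97_lower (N : Matrix (Fin (n + 1)) (Fin (n + 1)) K) : Matrix (Fin n) (Fin n) K :=
  fun i j => N i.succ j.succ

lemma TI97_qf_cons_expand (M : Matrix (Fin (n + 1)) (Fin (n + 1)) K)
    (hM : ∀ i j, M i j = M j i) (u₀ : K) (u' : Fin n → K) :
    TI97_qf M (Fin.cons u₀ u') =
      M 0 0 * u₀ ^ 2 + 2 * u₀ * (∑ i, M 0 i.succ * u' i) +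
        ∑ i, ∑ j, M i.succ j.succ * u' i * u' j := by
  unfold TI97_qf
  rw [Fin.sum_univ_succ]
  simp only [Fin.sum_univ_succ, Fin.cons_zero, Fin.cons_succ]
  have h1 : ∑ x : Fin n, M 0 x.succ * u₀ * u' x = u₀ * ∑ i, M 0 i.succ * u' i := by
    rw [Finset.mul_sum]
    exact Finset.sum_congr rfl fun i _ => by ring
  have h2 : ∑ x : Fin n, (M x.succ 0 * u' x * u₀ + ∑ j, M x.succ j.succ * u' x * u' j) =
      u₀ * (∑ i, M 0 i.succ * u' i) + ∑ i, ∑ j, M i.succ j.succ * u' i * u' j := by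
    rw [Finset.sum_add_distrib, Finset.mul_sum]
    congr 1
    exact Finset.sum_congr rfl fun i _ => by rw [hM i.succ 0]; ring
  rw [h1, h2]
  ring

lemma TI97_qf_schur (M : Matrix (Fin (n + 1)) (Fin (n + 1)) K) (h0 : M 0 0 ≠ 0)
    (u' : Fin n → K) :
    TI97_qf (TI97_schur M) u' =
      (∑ i, ∑ j, M i.succ j.succ * u' i * u' j) - (∑ i, M 0 i.succ * u' i) ^ 2 / M 0 0 := by
  unfold TI97_qf TI97_schur
  have h : (∑ i, M 0 i.succ * u' i) ^ 2 = ∑ i, ∑ j, M 0 i.succ * M 0 j.succ * u' i * u' j := by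
    rw [sq, Finset.sum_mul_sum]
    exact Finset.sum_congr rfl fun i _ => Finset.sum_congr rfl fun j _ => by ring
  rw [h, Finset.sum_div, ← Finset.sum_sub_distrib]
  refine Finset.sum_congr rfl fun i _ => ?_
  rw [Finset.sum_div, ← Finset.sum_sub_distrib]
  refine Finset.sum_congr rfl fun j _ => ?_
  field_simp

/-- Completing the square in the first variable. -/
lemma TI97_qf_cons (M : Matrix (Fin (n + 1)) (Fin (n + 1)) K)
    (hM : ∀ i j, M i j = M j i) (h0 : M 0 0 ≠ 0) (u₀ : K) (u' : Fin n → K) :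
    TI97_qf M (Fin.cons u₀ u') =
      M 0 0 * (u₀ + (∑ i, M 0 i.succ * u' i) / M 0 0) ^ 2 + TI97_qf (TI97_schur M) u' := by
  rw [TI97_qf_cons_expand M hM, TI97_qf_schur M h0]
  field_simp
  ring

/-- Relations coming from `M * N = 1`. -/
lemma TI97_rel00 (M N : Matrix (Fin (n + 1)) (Fin (n + 1)) K) (h : M * N = 1) :
    M 0 0 * N 0 0 + ∑ j : Fin n, M 0 j.succ * N j.succ 0 = 1 := by
  have := congrFun (congrFun h 0) 0
  rw [Matrix.mul_apply, Fin.sum_univ_succ] at this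
  simpa using this

lemma TI97_rel0k (M N : Matrix (Fin (n + 1)) (Fin (n + 1)) K) (h : M * N = 1) (k : Fin n) :
    M 0 0 * N 0 k.succ + ∑ j : Fin n, M 0 j.succ * N j.succ k.succ = 0 := by
  have := congrFun (congrFun h 0) k.succ
  rw [Matrix.mul_apply, Fin.sum_univ_succ] at this
  rw [this, Matrix.one_apply_ne (Fin.succ_ne_zero k).symm]

lemma TI97_relik (M N : Matrix (Fin (n + 1)) (Fin (n + 1)) K) (h : M * N = 1) (i k : Fin n) :
    M i.succ 0 * N 0 k.succ + ∑ j : Fin n, M i.succ j.succ * N j.succ k.succ =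
      if i = k then 1 else 0 := by
  have := congrFun (congrFun h i.succ) k.succ
  rw [Matrix.mul_apply, Fin.sum_univ_succ] at this
  rw [this, Matrix.one_apply]
  simp [Fin.succ_inj]

/-- The lower right block of the inverse is the inverse of the Schur complement. -/
lemma TI97_schur_mul_lower (M N : Matrix (Fin (n + 1)) (Fin (n + 1)) K)
    (hM : ∀ i j, M i j = M j i) (h0 : M 0 0 ≠ 0) (h : M * N = 1) :
    TI97_schur M * TI97_lower N = 1 := by
  ext i k
  rw [Matrix.mul_apply, Matrix.one_apply]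
  have h1 := TI97_relik M N h i k
  have h2 := TI97_rel0k M N h k
  have e : ∑ j, TI97_schur M i j * TI97_lower N j k =
      (∑ j : Fin n, M i.succ j.succ * N j.succ k.succ) -
        M 0 i.succ / M 0 0 * ∑ j : Fin n, M 0 j.succ * N j.succ k.succ := by
    unfold TI97_schur TI97_lower
    rw [Finset.mul_sum, ← Finset.sum_sub_distrib]
    refine Finset.sum_congr rfl fun j _ => ?_
    field_simp
  rw [e, ← h1, hM i.succ 0]
  have h3 : ∑ j : Fin n, M 0 j.succ * N j.succ k.succ = -(M 0 0 * N 0 k.succ) := by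
    rw [eq_neg_iff_add_eq_zero, add_comm]
    exact h2
  rw [h3]
  field_simp
  ring

/-- The dual quadratic form after completing the square. -/
lemma TI97_qf_dual_cons (M N : Matrix (Fin (n + 1)) (Fin (n + 1)) K)
    (hN : ∀ i j, N i j = N j i) (h0 : M 0 0 ≠ 0) (h : M * N = 1)
    (u₀ : K) (u' : Fin n → K) :
    TI97_qf N (Fin.cons u₀ u') =
      u₀ ^ 2 / M 0 0 + TI97_qf (TI97_lower N) (fun i => u' i - M 0 i.succ / M 0 0 * u₀) := by
  rw [TI97_qf_cons_expand N hN]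
  have h00 := TI97_rel00 M N h
  have h0k := TI97_rel0k M N h
  -- the three sums
  set a := M 0 0 with ha
  set S1 := ∑ i, N 0 i.succ * u' i with hS1
  set S2 := ∑ i, ∑ j, N i.succ j.succ * u' i * u' j with hS2
  have hb : ∀ k : Fin n, ∑ j : Fin n, M 0 j.succ * N j.succ k.succ = -(a * N 0 k.succ) := by
    intro k
    rw [eq_neg_iff_add_eq_zero, add_comm]
    exact h0k k
  have hb' : ∀ k : Fin n, ∑ j : Fin n, N k.succ j.succ * M 0 j.succ = -(a * N 0 k.succ) := by
    intro k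
    rw [← hb k]
    exact Finset.sum_congr rfl fun j _ => by rw [hN k.succ j.succ]; ring
  have e : TI97_qf (TI97_lower N) (fun i => u' i - M 0 i.succ / a * u₀) =
      S2 - u₀ / a * (∑ i : Fin n, ∑ j : Fin n,
          N i.succ j.succ * (M 0 i.succ * u' j + u' i * M 0 j.succ)) +
        u₀ ^ 2 / a ^ 2 * ∑ i : Fin n, ∑ j : Fin n, N i.succ j.succ * M 0 i.succ * M 0 j.succ := by
    unfold TI97_qf TI97_lower
    rw [hS2, Finset.mul_sum, Finset.mul_sum, ← Finset.sum_sub_distrib, ← Finset.sum_add_distrib]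
    refine Finset.sum_congr rfl fun i _ => ?_
    rw [Finset.mul_sum, Finset.mul_sum, ← Finset.sum_sub_distrib, ← Finset.sum_add_distrib]
    refine Finset.sum_congr rfl fun j _ => ?_
    field_simp
    ring
  have e1 : ∑ i : Fin n, ∑ j : Fin n,
      N i.succ j.succ * (M 0 i.succ * u' j + u' i * M 0 j.succ) = -(2 * a * S1) := by
    have t1 : ∑ i : Fin n, ∑ j : Fin n, N i.succ j.succ * (M 0 i.succ * u' j) = -(a * S1) := by
      rw [Finset.sum_comm]
      have : ∀ j : Fin n, ∑ i : Fin n, N i.succ j.succ * (M 0 i.succ * u' j) =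
          -(a * N 0 j.succ) * u' j := by
        intro j
        rw [← hb j, Finset.sum_mul]
        exact Finset.sum_congr rfl fun i _ => by ring
      rw [Finset.sum_congr rfl fun j _ => this j, hS1, Finset.mul_sum, ← Finset.sum_neg_distrib]
      exact Finset.sum_congr rfl fun j _ => by ring
    have t2 : ∑ i : Fin n, ∑ j : Fin n, N i.succ j.succ * (u' i * M 0 j.succ) = -(a * S1) := by
      have : ∀ i : Fin n, ∑ j : Fin n, N i.succ j.succ * (u' i * M 0 j.succ) =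
          -(a * N 0 i.succ) * u' i := by
        intro i
        rw [← hb' i, Finset.sum_mul]
        exact Finset.sum_congr rfl fun j _ => by ring
      rw [Finset.sum_congr rfl fun i _ => this i, hS1, Finset.mul_sum, ← Finset.sum_neg_distrib]
      exact Finset.sum_congr rfl fun j _ => by ring
    have : ∀ i : Fin n, ∑ j : Fin n, N i.succ j.succ * (M 0 i.succ * u' j + u' i * M 0 j.succ) =
        (∑ j : Fin n, N i.succ j.succ * (M 0 i.succ * u' j)) +
          ∑ j : Fin n, N i.succ j.succ * (u' i * M 0 j.succ) := by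
      intro i
      rw [← Finset.sum_add_distrib]
      exact Finset.sum_congr rfl fun j _ => by ring
    rw [Finset.sum_congr rfl fun i _ => this i, Finset.sum_add_distrib, t1, t2]
    ring
  have e2 : ∑ i : Fin n, ∑ j : Fin n, N i.succ j.succ * M 0 i.succ * M 0 j.succ =
      -(a * (1 - a * N 0 0)) := by
    have : ∀ i : Fin n, ∑ j : Fin n, N i.succ j.succ * M 0 i.succ * M 0 j.succ =
        -(a * N 0 i.succ) * M 0 i.succ := by
      intro i
      rw [← hb' i, Finset.sum_mul]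
      exact Finset.sum_congr rfl fun j _ => by ring
    rw [Finset.sum_congr rfl fun i _ => this i]
    have h3 : ∑ j : Fin n, M 0 j.succ * N j.succ 0 = 1 - a * N 0 0 := by
      rw [eq_sub_iff_add_eq, add_comm]
      exact h00
    rw [← h3, Finset.mul_sum, ← Finset.sum_neg_distrib]
    exact Finset.sum_congr rfl fun j _ => by rw [hN j.succ 0]; ring
  rw [e, e1, e2]
  field_simp
  ring

/-- Determinant and Schur complement. -/
lemma TI97_det_schur (M : Matrix (Fin (n + 1)) (Fin (n + 1)) K)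
    (hM : ∀ i j, M i j = M j i) (h0 : M 0 0 ≠ 0) :
    M.det = M 0 0 * (TI97_schur M).det := by
  -- row operations
  set c : Fin (n + 1) → K := Fin.cons 0 (fun i => -(M 0 i.succ / M 0 0)) with hc
  set M' : Matrix (Fin (n + 1)) (Fin (n + 1)) K := fun i j => M i j + c i * M 0 j with hM'
  have hdet : M'.det = M.det :=
    Matrix.det_eq_of_forall_row_eq_smul_add_const c 0 (by simp [hc]) (fun i j => rfl)
  rw [← hdet, Matrix.det_succ_column_zero, Fin.sum_univ_succ]
  have hz : ∀ i : Fin n, M' i.succ 0 = 0 := by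
    intro i
    simp only [hM', hc, Fin.cons_succ]
    rw [hM i.succ 0]
    field_simp
    ring
  have h00 : M' 0 0 = M 0 0 := by simp [hM', hc]
  have hsub : M'.submatrix (Fin.succAbove 0) Fin.succ = TI97_schur M := by
    ext i j
    have h1 : M'.submatrix (Fin.succAbove 0) Fin.succ i j = M' i.succ j.succ := by
      simp [Matrix.submatrix_apply, Fin.succAbove_zero]
    rw [h1]
    show M i.succ j.succ + c i.succ * M 0 j.succ = _
    have hci : c i.succ = -(M 0 i.succ / M 0 0) := by simp [hc]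
    rw [hci]
    unfold TI97_schur
    ring
  rw [Finset.sum_eq_zero (fun i _ => by rw [hz i]; ring), add_zero, h00, hsub]
  simp

end Algebra


section PD

variable {n : ℕ}

/-- Elementary positive definiteness of a real symmetric matrix. -/
def TI97_IsPD (A : Matrix (Fin n) (Fin n) ℝ) : Prop :=
  (∀ i j, A i j = A j i) ∧ ∀ x : Fin n → ℝ, x ≠ 0 → 0 < TI97_qf A x

lemma TI97_qf_eq_dotProduct {K : Type*} [Field K] (M : Matrix (Fin n) (Fin n) K)
    (u : Fin n → K) : TI97_qf M u = u ⬝ᵥ (M.mulVec u) := by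
  unfold TI97_qf
  simp only [dotProduct, Matrix.mulVec, Finset.mul_sum]
  exact Finset.sum_congr rfl fun i _ => Finset.sum_congr rfl fun j _ => by ring

lemma TI97_isPD_of_posDef (A : Matrix (Fin n) (Fin n) ℝ) (hA : A.PosDef) : TI97_IsPD A := by
  rw [Matrix.posDef_iff_dotProduct_mulVec] at hA
  refine ⟨fun i j => ?_, fun x hx => ?_⟩
  · have := hA.1.apply i j
    simpa using this.symm
  · rw [TI97_qf_eq_dotProduct]
    simpa using hA.2 hx

lemma TI97_pos00 (A : Matrix (Fin (n + 1)) (Fin (n + 1)) ℝ) (hA : TI97_IsPD A) : 0 < A 0 0 := by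
  have h := hA.2 (Fin.cons 1 0) (by
    intro h
    have := congrFun h 0
    simp at this)
  rw [TI97_qf_cons_expand A hA.1] at h
  simpa using h

lemma TI97_isPD_schur (A : Matrix (Fin (n + 1)) (Fin (n + 1)) ℝ) (hA : TI97_IsPD A) :
    TI97_IsPD (TI97_schur A) := by
  have h0 := TI97_pos00 A hA
  refine ⟨fun i j => ?_, fun x hx => ?_⟩
  · unfold TI97_schur
    rw [hA.1 i.succ j.succ]
    ring
  · have h := hA.2 (Fin.cons (-((∑ i, A 0 i.succ * x i) / A 0 0)) x) (by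
      intro h
      apply hx
      funext i
      have := congrFun h i.succ
      simpa using this)
    rw [TI97_qf_cons A hA.1 h0.ne'] at h
    simpa using h

lemma TI97_isPD_inv (A B : Matrix (Fin n) (Fin n) ℝ) (hA : TI97_IsPD A) (hAB : A * B = 1) :
    TI97_IsPD B := by
  have hAt : A.transpose = A := by
    ext i j
    exact hA.1 j i
  have hBt : B.transpose = B := by
    have h1 : B.transpose * A = 1 := by
      have := congrArg Matrix.transpose hAB
      rw [Matrix.transpose_mul, Matrix.transpose_one, hAt] at this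
      exact this
    calc B.transpose = B.transpose * (A * B) := by rw [hAB, Matrix.mul_one]
      _ = (B.transpose * A) * B := by rw [Matrix.mul_assoc]
      _ = B := by rw [h1, Matrix.one_mul]
  refine ⟨fun i j => ?_, fun x hx => ?_⟩
  · have := congrFun (congrFun hBt j) i
    simpa using this
  · have hne : B.mulVec x ≠ 0 := by
      intro h
      apply hx
      have : A.mulVec (B.mulVec x) = x := by
        rw [Matrix.mulVec_mulVec, hAB, Matrix.one_mulVec]
      rw [← this, h, Matrix.mulVec_zero]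
    have h := hA.2 _ hne
    rw [TI97_qf_eq_dotProduct, Matrix.mulVec_mulVec, hAB, Matrix.one_mulVec, dotProduct_comm,
      ← TI97_qf_eq_dotProduct] at h
    exact h

/-- Coercivity of a positive definite form. -/
lemma TI97_exists_lower : ∀ (n : ℕ) (A : Matrix (Fin n) (Fin n) ℝ), TI97_IsPD A →
    ∃ ε : ℝ, 0 < ε ∧ ∀ x : Fin n → ℝ, ε * ∑ i, x i ^ 2 ≤ TI97_qf A x := by
  intro n
  induction n with
  | zero =>
    intro A _
    refine ⟨1, one_pos, fun x => ?_⟩
    simp [TI97_qf]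
  | succ n ih =>
    intro A hA
    have ha := TI97_pos00 A hA
    obtain ⟨ε', hε', hS⟩ := ih (TI97_schur A) (TI97_isPD_schur A hA)
    set a := A 0 0 with hadef
    set c : ℝ := (∑ i : Fin n, A 0 i.succ ^ 2) / a ^ 2 with hc
    have hc0 : 0 ≤ c := by
      rw [hc]
      positivity
    set ε : ℝ := min (a / 2) (ε' / (2 * c + 1)) with hε
    have hεpos : 0 < ε := by
      rw [hε]
      apply lt_min
      · positivity
      · positivity
    have hε1 : 2 * ε ≤ a := by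
      have := min_le_left (a / 2) (ε' / (2 * c + 1))
      linarith
    have hε2 : ε * (2 * c + 1) ≤ ε' := by
      have := min_le_right (a / 2) (ε' / (2 * c + 1))
      rw [← hε] at this
      have h3 : 0 < 2 * c + 1 := by positivity
      calc ε * (2 * c + 1) ≤ ε' / (2 * c + 1) * (2 * c + 1) := by gcongr
        _ = ε' := by field_simp
    refine ⟨ε, hεpos, fun x => ?_⟩
    have hx : x = Fin.cons (x 0) (Fin.tail x) := (Fin.cons_self_tail x).symm
    set x₀ := x 0 with hx0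
    set x' := Fin.tail x with hx'
    have hsum : ∑ i, x i ^ 2 = x₀ ^ 2 + ∑ i, x' i ^ 2 := by
      rw [Fin.sum_univ_succ]
      rfl
    rw [hsum, hx, TI97_qf_cons A hA.1 ha.ne']
    set β := (∑ i : Fin n, A 0 i.succ * x' i) / A 0 0 with hβ
    have hβ2 : β ^ 2 ≤ c * ∑ i, x' i ^ 2 := by
      rw [hβ, hc, div_pow]
      have hcs : (∑ i : Fin n, A 0 i.succ * x' i) ^ 2 ≤
          (∑ i : Fin n, A 0 i.succ ^ 2) * ∑ i, x' i ^ 2 :=
        Finset.sum_mul_sq_le_sq_mul_sq _ _ _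
      have ha2 : 0 < a ^ 2 := by positivity
      rw [div_mul_eq_mul_div]
      exact div_le_div_of_nonneg_right hcs ha2.le
    have hS' := hS x'
    have hsq : 0 ≤ ∑ i, x' i ^ 2 := Finset.sum_nonneg fun i _ => sq_nonneg _
    have h1 : x₀ ^ 2 ≤ 2 * (x₀ + β) ^ 2 + 2 * β ^ 2 := by nlinarith [sq_nonneg (x₀ + 2 * β)]
    have h2 : ε * x₀ ^ 2 ≤ a * (x₀ + β) ^ 2 + ε * (2 * c) * ∑ i, x' i ^ 2 := by
      have t1 : ε * x₀ ^ 2 ≤ ε * (2 * (x₀ + β) ^ 2 + 2 * β ^ 2) := by gcongr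
      have t2 : ε * (2 * β ^ 2) ≤ ε * (2 * (c * ∑ i, x' i ^ 2)) := by gcongr
      have t3 : 2 * ε * (x₀ + β) ^ 2 ≤ a * (x₀ + β) ^ 2 := by
        have := sq_nonneg (x₀ + β)
        gcongr
      nlinarith
    have h3 : ε * (2 * c + 1) * ∑ i, x' i ^ 2 ≤ ε' * ∑ i, x' i ^ 2 := by gcongr
    nlinarith

end PD


section Summability

variable {n : ℕ}

/-- The general term of the theta series of `A` with characteristic `w`. -/
noncomputable def TI97_term (A : Matrix (Fin n) (Fin n) ℝ) (τ : ℂ) (w : Fin n → ℂ)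
    (x : Fin n → ℤ) : ℂ :=
  cexp (π * I * τ * (∑ i, ∑ j, (A i j : ℂ) * x i * x j) + 2 * π * I * ∑ i, (x i : ℂ) * w i)

/-- The general term of the dual theta series. -/
noncomputable def TI97_dual (B : Matrix (Fin n) (Fin n) ℝ) (τ : ℂ) (w : Fin n → ℂ)
    (y : Fin n → ℤ) : ℂ :=
  cexp (-π * I / τ * ∑ i, ∑ j, (B i j : ℂ) * (y i + w i) * (y j + w j))

lemma TI97_qf_cast (A : Matrix (Fin n) (Fin n) ℝ) (x : Fin n → ℤ) :
    (∑ i, ∑ j, (A i j : ℂ) * x i * x j) = ((TI97_qf A (fun i => (x i : ℝ)) : ℝ) : ℂ) := by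
  unfold TI97_qf
  push_cast
  rfl

lemma TI97_norm_term (A : Matrix (Fin n) (Fin n) ℝ) (τ : ℂ) (w : Fin n → ℂ) (x : Fin n → ℤ) :
    ‖TI97_term A τ w x‖ =
      rexp (-π * τ.im * TI97_qf A (fun i => (x i : ℝ)) - 2 * π * ∑ i, (x i : ℝ) * (w i).im) := by
  unfold TI97_term
  rw [Complex.norm_exp, TI97_qf_cast]
  congr 1
  have h1 : (π * I * τ * ((TI97_qf A (fun i => (x i : ℝ)) : ℝ) : ℂ)).re =
      -π * τ.im * TI97_qf A (fun i => (x i : ℝ)) := by
    simp [mul_re]
  have h2 : (2 * π * I * ∑ i, (x i : ℂ) * w i).re = -(2 * π * ∑ i, (x i : ℝ) * (w i).im) := by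
    have : (∑ i, (x i : ℂ) * w i).im = ∑ i, (x i : ℝ) * (w i).im := by
      rw [Complex.im_sum]
      refine Finset.sum_congr rfl fun i _ => ?_
      simp [mul_im]
    simp only [mul_re, mul_im, re_ofNat, im_ofNat, ofReal_re, ofReal_im, I_re, I_im, this]
    ring
  rw [add_re, h1, h2]
  ring

lemma TI97_summable_one (c K : ℝ) (hc : 0 < c) :
    Summable (fun k : ℤ => rexp (-c * (k : ℝ) ^ 2 + K * |(k : ℝ)|)) := by
  have hτ : 0 < (((c / π : ℝ) : ℂ) * I).im := by
    simp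
    positivity
  have hs1 := ((summable_jacobiTheta₂_term_iff (((-(K / (2 * π)) : ℝ) : ℂ) * I)
    (((c / π : ℝ) : ℂ) * I)).mpr hτ).norm
  have hs2 := ((summable_jacobiTheta₂_term_iff ((((K / (2 * π)) : ℝ) : ℂ) * I)
    (((c / π : ℝ) : ℂ) * I)).mpr hτ).norm
  have e1 : ∀ k : ℤ, ‖jacobiTheta₂_term k (((-(K / (2 * π)) : ℝ) : ℂ) * I)
      (((c / π : ℝ) : ℂ) * I)‖ = rexp (-c * (k : ℝ) ^ 2 + K * k) := by
    intro k
    rw [norm_jacobiTheta₂_term]
    congr 1
    simp only [mul_im, ofReal_re, I_im, mul_one, ofReal_im, I_re, mul_zero, add_zero]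
    field_simp
    ring
  have e2 : ∀ k : ℤ, ‖jacobiTheta₂_term k ((((K / (2 * π)) : ℝ) : ℂ) * I)
      (((c / π : ℝ) : ℂ) * I)‖ = rexp (-c * (k : ℝ) ^ 2 - K * k) := by
    intro k
    rw [norm_jacobiTheta₂_term]
    congr 1
    simp only [mul_im, ofReal_re, I_im, mul_one, ofReal_im, I_re, mul_zero, add_zero]
    field_simp
  refine Summable.of_nonneg_of_le (fun k => (Real.exp_pos _).le) (fun k => ?_) (hs1.add hs2)
  rw [e1, e2]
  rcases abs_cases (k : ℝ) with ⟨h, _⟩ | ⟨h, _⟩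
  · rw [h]
    have := Real.exp_pos (-c * (k : ℝ) ^ 2 - K * k)
    linarith
  · rw [h]
    have := Real.exp_pos (-c * (k : ℝ) ^ 2 + K * k)
    have e : -c * (k : ℝ) ^ 2 + K * -(k : ℝ) = -c * (k : ℝ) ^ 2 - K * k := by ring
    rw [e]
    linarith

lemma TI97_summable_pi (c K : ℝ) (hc : 0 < c) : ∀ n : ℕ,
    Summable (fun x : Fin n → ℤ => ∏ i, rexp (-c * (x i : ℝ) ^ 2 + K * |(x i : ℝ)|)) := by
  intro n
  induction n with
  | zero => exact Summable.of_finite
  | succ n ih =>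
    rw [← (Fin.consEquiv (fun _ => ℤ)).summable_iff]
    have h := Summable.mul_of_nonneg (TI97_summable_one c K hc) ih
      (fun k => (Real.exp_pos _).le) (fun x => Finset.prod_nonneg fun i _ => (Real.exp_pos _).le)
    refine h.congr fun p => ?_
    simp only [Function.comp_apply, Fin.consEquiv, Equiv.coe_fn_mk]
    rw [Fin.prod_univ_succ]
    simp

/-- Summability of the theta series of a positive definite form. -/
lemma TI97_summable_term (A : Matrix (Fin n) (Fin n) ℝ) (hA : TI97_IsPD A) {τ : ℂ}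
    (hτ : 0 < τ.im) (w : Fin n → ℂ) : Summable (TI97_term A τ w) := by
  obtain ⟨ε, hε, hlow⟩ := TI97_exists_lower n A hA
  obtain ⟨M, hM0, hMle⟩ : ∃ M : ℝ, 0 ≤ M ∧ ∀ i, |(w i).im| ≤ M :=
    ⟨∑ i, |(w i).im|, Finset.sum_nonneg fun i _ => abs_nonneg _, fun i =>
      Finset.single_le_sum (f := fun i => |(w i).im|) (fun j _ => abs_nonneg _)
        (Finset.mem_univ i)⟩
  have hc : 0 < π * τ.im * ε := by positivity
  refine Summable.of_norm_bounded (TI97_summable_pi (π * τ.im * ε) (2 * π * M) hc n) fun x => ?_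
  rw [TI97_norm_term, ← Real.exp_sum]
  apply Real.exp_le_exp.mpr
  have h1 := hlow (fun i => (x i : ℝ))
  have h2 : -(∑ i, (x i : ℝ) * (w i).im) ≤ ∑ i, M * |(x i : ℝ)| := by
    rw [← Finset.sum_neg_distrib]
    refine Finset.sum_le_sum fun i _ => ?_
    have h3 : |(w i).im| ≤ M := hMle i
    calc -((x i : ℝ) * (w i).im) ≤ |(x i : ℝ) * (w i).im| := neg_le_abs _
      _ = |(w i).im| * |(x i : ℝ)| := by rw [abs_mul, mul_comm]
      _ ≤ M * |(x i : ℝ)| := by gcongr
  have h4 : ∑ i, (-(π * τ.im * ε) * (x i : ℝ) ^ 2 + 2 * π * M * |(x i : ℝ)|) =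
      -(π * τ.im * ε) * (∑ i, (x i : ℝ) ^ 2) + 2 * π * ∑ i, M * |(x i : ℝ)| := by
    rw [Finset.sum_add_distrib, Finset.mul_sum, Finset.mul_sum]
    congr 1
    exact Finset.sum_congr rfl fun i _ => by ring
  rw [h4]
  have h5 : π * τ.im * (ε * ∑ i, (x i : ℝ) ^ 2) ≤ π * τ.im * TI97_qf A (fun i => (x i : ℝ)) := by
    gcongr
  have hπ : 0 < π := Real.pi_pos
  nlinarith

/-- Expansion of the quadratic form of a sum. -/
lemma TI97_qf_add {K : Type*} [Field K] (M : Matrix (Fin n) (Fin n) K)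
    (hM : ∀ i j, M i j = M j i) (u v : Fin n → K) :
    TI97_qf M (fun i => u i + v i) =
      TI97_qf M u + 2 * (∑ i, u i * ∑ j, M i j * v j) + TI97_qf M v := by
  unfold TI97_qf
  have h1 : ∀ i : Fin n, ∑ j, M i j * (u i + v i) * (u j + v j) =
      (∑ j, M i j * u i * u j) + (u i * ∑ j, M i j * v j) + (v i * ∑ j, M i j * u j) +
        ∑ j, M i j * v i * v j := by
    intro i
    rw [Finset.mul_sum, Finset.mul_sum, ← Finset.sum_add_distrib, ← Finset.sum_add_distrib,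
      ← Finset.sum_add_distrib]
    exact Finset.sum_congr rfl fun j _ => by ring
  rw [Finset.sum_congr rfl fun i _ => h1 i]
  simp only [Finset.sum_add_distrib]
  have h2 : ∑ i, v i * ∑ j, M i j * u j = ∑ i, u i * ∑ j, M i j * v j := by
    simp only [Finset.mul_sum]
    rw [Finset.sum_comm]
    exact Finset.sum_congr rfl fun i _ => Finset.sum_congr rfl fun j _ => by
      rw [hM j i]
      ring
  rw [h2]
  ring

/-- The dual term as a translate of a term of the dual form. -/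
lemma TI97_dual_eq (B : Matrix (Fin n) (Fin n) ℝ) (hB : ∀ i j, B i j = B j i) (τ : ℂ)
    (w : Fin n → ℂ) (y : Fin n → ℤ) :
    TI97_dual B τ w y =
      cexp (-π * I / τ * ∑ i, ∑ j, (B i j : ℂ) * w i * w j) *
        TI97_term B (-1 / τ) (fun i => -1 / τ * ∑ j, (B i j : ℂ) * w j) y := by
  unfold TI97_dual TI97_term
  rw [← Complex.exp_add]
  congr 1
  have h := TI97_qf_add (B.map (fun r : ℝ => (r : ℂ)))
    (fun i j => by simp [hB i j]) (fun i => (y i : ℂ)) w
  unfold TI97_qf at h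
  simp only [Matrix.map_apply] at h
  rw [h]
  have h3 : ∑ i, (y i : ℂ) * (-1 / τ * ∑ j, (B i j : ℂ) * w j) =
      -1 / τ * ∑ i, (y i : ℂ) * ∑ j, (B i j : ℂ) * w j := by
    rw [Finset.mul_sum]
    exact Finset.sum_congr rfl fun i _ => by ring
  rw [h3]
  ring

lemma TI97_im_neg_inv {τ : ℂ} (hτ : 0 < τ.im) : 0 < (-1 / τ).im := by
  have hτ0 : τ ≠ 0 := by
    rintro rfl
    simp at hτ
  have hn : 0 < normSq τ := normSq_pos.mpr hτ0
  have : (-1 / τ).im = τ.im / normSq τ := by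
    rw [neg_div, neg_im, one_div, inv_im]
    ring
  rw [this]
  positivity

lemma TI97_summable_dual (B : Matrix (Fin n) (Fin n) ℝ) (hB : TI97_IsPD B) {τ : ℂ}
    (hτ : 0 < τ.im) (w : Fin n → ℂ) : Summable (TI97_dual B τ w) := by
  have h := (TI97_summable_term B hB (TI97_im_neg_inv hτ)
    (fun i => -1 / τ * ∑ j, (B i j : ℂ) * w j)).mul_left
    (cexp (-π * I / τ * ∑ i, ∑ j, (B i j : ℂ) * w i * w j))
  exact h.congr fun y => (TI97_dual_eq B hB.1 τ w y).symm

end Summability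


section Step

variable {n : ℕ}

lemma TI97_cast_cons (x₀ : ℤ) (x' : Fin n → ℤ) (i : Fin (n + 1)) :
    (((Fin.cons x₀ x' : Fin (n + 1) → ℤ) i : ℤ) : ℂ) =
      (Fin.cons (x₀ : ℂ) (fun i => (x' i : ℂ)) : Fin (n + 1) → ℂ) i := by
  refine Fin.cases ?_ (fun j => ?_) i <;> simp

lemma TI97_map_symm (A : Matrix (Fin n) (Fin n) ℝ) (hA : ∀ i j, A i j = A j i) (i j : Fin n) :
    (A.map (fun r : ℝ => (r : ℂ))) i j = (A.map (fun r : ℝ => (r : ℂ))) j i := by
  simp [hA i j]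

/-- Splitting off the first variable in the general term. -/
lemma TI97_term_cons (A : Matrix (Fin (n + 1)) (Fin (n + 1)) ℝ) (hA : ∀ i j, A i j = A j i)
    (τ : ℂ) (w : Fin (n + 1) → ℂ) (x₀ : ℤ) (x' : Fin n → ℤ) :
    TI97_term A τ w (Fin.cons x₀ x') =
      cexp (π * I * τ * (A 0 0 : ℝ) * (x₀ : ℂ) ^ 2 +
          2 * π * I * x₀ * (τ * (∑ i : Fin n, (A 0 i.succ : ℂ) * x' i) + w 0)) *
        cexp (π * I * τ * (∑ i : Fin n, ∑ j : Fin n, (A i.succ j.succ : ℂ) * x' i * x' j) +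
          2 * π * I * ∑ i : Fin n, (x' i : ℂ) * w i.succ) := by
  unfold TI97_term
  rw [← Complex.exp_add]
  congr 1
  have h := TI97_qf_cons_expand (A.map (fun r : ℝ => (r : ℂ))) (TI97_map_symm A hA)
    (x₀ : ℂ) (fun i => (x' i : ℂ))
  unfold TI97_qf at h
  simp only [Matrix.map_apply] at h
  simp only [TI97_cast_cons]
  rw [h, Fin.sum_univ_succ]
  simp only [Fin.cons_zero, Fin.cons_succ]
  ring

/-- The mixed term after one-variable inversion. -/
lemma TI97_G_eq (A : Matrix (Fin (n + 1)) (Fin (n + 1)) ℝ) (h0 : A 0 0 ≠ 0) (τ : ℂ) (hτ0 : τ ≠ 0)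
    (w : Fin (n + 1) → ℂ) (y₀ : ℤ) (x' : Fin n → ℤ) :
    cexp (-π * I / (τ * (A 0 0 : ℝ)) *
          ((y₀ : ℂ) + (τ * (∑ i : Fin n, (A 0 i.succ : ℂ) * x' i) + w 0)) ^ 2) *
        cexp (π * I * τ * (∑ i : Fin n, ∑ j : Fin n, (A i.succ j.succ : ℂ) * x' i * x' j) +
          2 * π * I * ∑ i : Fin n, (x' i : ℂ) * w i.succ) =
      cexp (-π * I / (τ * (A 0 0 : ℝ)) * ((y₀ : ℂ) + w 0) ^ 2) *
        TI97_term (TI97_schur A) τ
          (fun i => w i.succ - ((A 0 i.succ / A 0 0 : ℝ) : ℂ) * ((y₀ : ℂ) + w 0)) x' := by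
  unfold TI97_term
  rw [← Complex.exp_add, ← Complex.exp_add]
  congr 1
  rw [TI97_qf_cast (TI97_schur A) x', TI97_qf_schur A h0]
  push_cast
  have ha : ((A 0 0 : ℝ) : ℂ) ≠ 0 := ofReal_ne_zero.mpr h0
  have h3 : ∑ i : Fin n, (x' i : ℂ) *
      (w i.succ - ((A 0 i.succ : ℂ) / (A 0 0 : ℂ)) * ((y₀ : ℂ) + w 0)) =
      (∑ i : Fin n, (x' i : ℂ) * w i.succ) -
        (∑ i : Fin n, (A 0 i.succ : ℂ) * x' i) / (A 0 0 : ℂ) * ((y₀ : ℂ) + w 0) := by
    rw [Finset.sum_div, Finset.sum_mul, ← Finset.sum_sub_distrib]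
    exact Finset.sum_congr rfl fun i _ => by ring
  rw [h3]
  field_simp
  ring

lemma TI97_add_cons (w : Fin (n + 1) → ℂ) (y₀ : ℤ) (y' : Fin n → ℤ) (i : Fin (n + 1)) :
    (((Fin.cons y₀ y' : Fin (n + 1) → ℤ) i : ℤ) : ℂ) + w i =
      (Fin.cons ((y₀ : ℂ) + w 0) (fun i => (y' i : ℂ) + w i.succ) : Fin (n + 1) → ℂ) i := by
  refine Fin.cases ?_ (fun j => ?_) i <;> simp

/-- Splitting off the first variable in the dual term. -/
lemma TI97_dual_cons (A B : Matrix (Fin (n + 1)) (Fin (n + 1)) ℝ)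
    (hB : ∀ i j, B i j = B j i) (h0 : A 0 0 ≠ 0) (hAB : A * B = 1) (τ : ℂ)
    (w : Fin (n + 1) → ℂ) (y₀ : ℤ) (y' : Fin n → ℤ) :
    TI97_dual B τ w (Fin.cons y₀ y') =
      cexp (-π * I / (τ * (A 0 0 : ℝ)) * ((y₀ : ℂ) + w 0) ^ 2) *
        TI97_dual (TI97_lower B) τ
          (fun i => w i.succ - ((A 0 i.succ / A 0 0 : ℝ) : ℂ) * ((y₀ : ℂ) + w 0)) y' := by
  unfold TI97_dual
  rw [← Complex.exp_add]
  congr 1
  have hmap : (A.map (fun r : ℝ => (r : ℂ))) * (B.map (fun r : ℝ => (r : ℂ))) = 1 := by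
    have := congrArg (fun M : Matrix (Fin (n + 1)) (Fin (n + 1)) ℝ =>
      M.map (Complex.ofRealHom : ℝ →+* ℂ)) hAB
    simp only [Matrix.map_mul, Matrix.map_one, map_zero, map_one] at this
    exact this
  have ha : ((A.map (fun r : ℝ => (r : ℂ))) 0 0) ≠ 0 := by
    simpa using h0
  have h := TI97_qf_dual_cons (A.map (fun r : ℝ => (r : ℂ))) (B.map (fun r : ℝ => (r : ℂ)))
    (TI97_map_symm B hB) ha hmap ((y₀ : ℂ) + w 0) (fun i => (y' i : ℂ) + w i.succ)
  unfold TI97_qf TI97_lower at h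
  simp only [Matrix.map_apply] at h
  simp only [TI97_add_cons]
  rw [h]
  have ha' : ((A 0 0 : ℝ) : ℂ) ≠ 0 := ofReal_ne_zero.mpr h0
  have e : ∀ i : Fin n, (y' i : ℂ) + w i.succ - (A 0 i.succ : ℂ) / (A 0 0 : ℂ) * ((y₀ : ℂ) + w 0) =
      (y' i : ℂ) + (w i.succ - ((A 0 i.succ / A 0 0 : ℝ) : ℂ) * ((y₀ : ℂ) + w 0)) := by
    intro i
    push_cast
    ring
  simp only [e, TI97_lower]
  by_cases hτ0 : τ = 0
  · subst hτ0
    simp
  · field_simp
    ring

end Step


section Main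

variable {n : ℕ}

/-- The constant of theta inversion. -/
noncomputable def TI97_const (n : ℕ) (A : Matrix (Fin n) (Fin n) ℝ) (τ : ℂ) : ℂ :=
  (1 / ((-I * τ) ^ (1 / 2 : ℂ)) ^ n) * (1 / (Real.sqrt A.det : ℂ))

lemma TI97_const_succ (A : Matrix (Fin (n + 1)) (Fin (n + 1)) ℝ) (hA : TI97_IsPD A) (τ : ℂ) :
    1 / ((-I * τ) ^ (1 / 2 : ℂ) * (Real.sqrt (A 0 0) : ℂ)) * TI97_const n (TI97_schur A) τ =
      TI97_const (n + 1) A τ := by
  unfold TI97_const
  have h0 := TI97_pos00 A hA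
  rw [TI97_det_schur A hA.1 h0.ne', Real.sqrt_mul h0.le]
  push_cast
  rw [pow_succ]
  simp only [one_div, mul_inv]
  ring

/-- The inductive step of theta inversion. -/
lemma TI97_step
    (ih : ∀ (A B : Matrix (Fin n) (Fin n) ℝ), TI97_IsPD A → A * B = 1 → ∀ (τ : ℂ), 0 < τ.im →
      ∀ w : Fin n → ℂ, ∑' x, TI97_term A τ w x = TI97_const n A τ * ∑' y, TI97_dual B τ w y)
    (A B : Matrix (Fin (n + 1)) (Fin (n + 1)) ℝ) (hA : TI97_IsPD A) (hAB : A * B = 1)
    (τ : ℂ) (hτ : 0 < τ.im) (w : Fin (n + 1) → ℂ) :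
    ∑' x, TI97_term A τ w x = TI97_const (n + 1) A τ * ∑' y, TI97_dual B τ w y := by
  have h0 := TI97_pos00 A hA
  have hτ0 : τ ≠ 0 := by
    rintro rfl
    simp at hτ
  have hB := TI97_isPD_inv A B hA hAB
  have hS := TI97_isPD_schur A hA
  have hSB : TI97_schur A * TI97_lower B = 1 := TI97_schur_mul_lower A B hA.1 h0.ne' hAB
  set E := Fin.consEquiv (fun _ : Fin (n + 1) => ℤ) with hE
  have hEapp : ∀ p : ℤ × (Fin n → ℤ), E p = Fin.cons p.1 p.2 := fun p => rfl
  -- notation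
  set z : (Fin n → ℤ) → ℂ := fun x' => τ * (∑ i : Fin n, (A 0 i.succ : ℂ) * x' i) + w 0 with hz
  set R : (Fin n → ℤ) → ℂ := fun x' =>
    cexp (π * I * τ * (∑ i : Fin n, ∑ j : Fin n, (A i.succ j.succ : ℂ) * x' i * x' j) +
      2 * π * I * ∑ i : Fin n, (x' i : ℂ) * w i.succ) with hR
  set w'' : ℤ → Fin n → ℂ := fun y₀ i =>
    w i.succ - ((A 0 i.succ / A 0 0 : ℝ) : ℂ) * ((y₀ : ℂ) + w 0) with hw''
  set D₀ : ℤ → ℂ := fun y₀ => cexp (-π * I / (τ * (A 0 0 : ℝ)) * ((y₀ : ℂ) + w 0) ^ 2) with hD₀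
  set c₁ : ℂ := 1 / ((-I * τ) ^ (1 / 2 : ℂ) * (Real.sqrt (A 0 0) : ℂ)) with hc₁
  -- Step 1: Fubini on the left
  have hsumA : Summable (fun p : ℤ × (Fin n → ℤ) => TI97_term A τ w (E p)) :=
    (E.summable_iff).mpr (TI97_summable_term A hA hτ w)
  have step1 : ∑' x, TI97_term A τ w x = ∑' x', ∑' x₀, TI97_term A τ w (Fin.cons x₀ x') := by
    rw [← E.tsum_eq, hsumA.tsum_prod]
    exact (Summable.tsum_comm (f := fun (x₀ : ℤ) (x' : Fin n → ℤ) =>
      TI97_term A τ w (Fin.cons x₀ x')) hsumA).symm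
  -- Step 2-3: one-variable inversion
  have step3 : ∀ x' : Fin n → ℤ, ∑' x₀, TI97_term A τ w (Fin.cons x₀ x') =
      c₁ * ∑' y₀, D₀ y₀ * TI97_term (TI97_schur A) τ (w'' y₀) x' := by
    intro x'
    have e1 : ∀ x₀ : ℤ, TI97_term A τ w (Fin.cons x₀ x') =
        cexp (π * I * τ * (A 0 0 : ℝ) * (x₀ : ℂ) ^ 2 + 2 * π * I * x₀ * z x') * R x' :=
      fun x₀ => TI97_term_cons A hA.1 τ w x₀ x'
    rw [tsum_congr e1, tsum_mul_right, TI97_one_dim h0 hτ (z x'), mul_assoc, ← tsum_mul_right]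
    congr 1
    refine tsum_congr fun y₀ => ?_
    exact TI97_G_eq A h0.ne' τ hτ0 w y₀ x'
  -- Step 5: Fubini in the middle
  have hnorm : ∀ (y₀ : ℤ) (x' : Fin n → ℤ),
      ‖D₀ y₀ * TI97_term (TI97_schur A) τ (w'' y₀) x'‖ =
        ‖D₀ y₀‖ * ‖TI97_term (TI97_schur A) τ (w'' 0) x'‖ := by
    intro y₀ x'
    have him : ∀ i : Fin n, (w'' y₀ i).im = (w'' 0 i).im := by
      intro i
      simp [hw'', mul_im]
    rw [norm_mul, TI97_norm_term, TI97_norm_term]
    simp only [him]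
  have hsumG : Summable (Function.uncurry (fun (y₀ : ℤ) (x' : Fin n → ℤ) =>
      D₀ y₀ * TI97_term (TI97_schur A) τ (w'' y₀) x')) := by
    have h1 : Summable (fun y₀ : ℤ => ‖D₀ y₀‖) :=
      (TI97_one_dim_summable_dual h0 hτ (w 0)).norm
    have h2 : Summable (fun x' : Fin n → ℤ => ‖TI97_term (TI97_schur A) τ (w'' 0) x'‖) :=
      (TI97_summable_term (TI97_schur A) hS hτ (w'' 0)).norm
    have h3 := Summable.mul_of_nonneg h1 h2 (fun _ => norm_nonneg _) (fun _ => norm_nonneg _)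
    refine Summable.of_norm (h3.congr fun p => ?_)
    simp only [Function.uncurry]
    exact (hnorm p.1 p.2).symm
  have step5 : ∑' x' : Fin n → ℤ, ∑' y₀ : ℤ, D₀ y₀ * TI97_term (TI97_schur A) τ (w'' y₀) x' =
      ∑' y₀ : ℤ, ∑' x' : Fin n → ℤ, D₀ y₀ * TI97_term (TI97_schur A) τ (w'' y₀) x' :=
    Summable.tsum_comm hsumG
  -- Step 6-7: induction hypothesis
  have step6 : ∀ y₀ : ℤ, ∑' x' : Fin n → ℤ, D₀ y₀ * TI97_term (TI97_schur A) τ (w'' y₀) x' =
      TI97_const n (TI97_schur A) τ * ∑' y' : Fin n → ℤ, TI97_dual B τ w (Fin.cons y₀ y') := by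
    intro y₀
    rw [tsum_mul_left, ih (TI97_schur A) (TI97_lower B) hS hSB τ hτ (w'' y₀), ← mul_assoc,
      mul_comm (D₀ y₀), mul_assoc, ← tsum_mul_left]
    congr 1
    refine tsum_congr fun y' => ?_
    exact (TI97_dual_cons A B hB.1 h0.ne' hAB τ w y₀ y').symm
  -- Step 8: Fubini on the right
  have hsumB : Summable (fun p : ℤ × (Fin n → ℤ) => TI97_dual B τ w (E p)) :=
    (E.summable_iff).mpr (TI97_summable_dual B hB hτ w)
  have step8 : ∑' y, TI97_dual B τ w y = ∑' y₀, ∑' y', TI97_dual B τ w (Fin.cons y₀ y') := by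
    rw [← E.tsum_eq, hsumB.tsum_prod]
    rfl
  rw [step1, tsum_congr step3, tsum_mul_left, step5, tsum_congr step6, tsum_mul_left, ← step8,
    ← mul_assoc, TI97_const_succ A hA τ]

/-- **Theta inversion** in `n` variables (elementary hypotheses). -/
theorem TI97_main : ∀ (n : ℕ) (A B : Matrix (Fin n) (Fin n) ℝ), TI97_IsPD A → A * B = 1 →
    ∀ (τ : ℂ), 0 < τ.im → ∀ w : Fin n → ℂ,
      ∑' x, TI97_term A τ w x = TI97_const n A τ * ∑' y, TI97_dual B τ w y := by
  intro n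
  induction n with
  | zero =>
    intro A B _ _ τ _ w
    rw [tsum_eq_single (0 : Fin 0 → ℤ) (fun x hx => absurd (Subsingleton.elim x 0) hx),
      tsum_eq_single (0 : Fin 0 → ℤ) (fun x hx => absurd (Subsingleton.elim x 0) hx)]
    simp [TI97_term, TI97_dual, TI97_const]
  | succ n ih => exact fun A B hA hAB τ hτ w => TI97_step ih A B hA hAB τ hτ w

/-- **Theta inversion** in `n` variables: for a positive definite real symmetric matrix `A` with
inverse `B`, `τ` in the upper half plane and a complex characteristic `w`,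
`∑ₓ e^{πiτ xᵀAx + 2πi x·w} = (-iτ)^{-n/2} (det A)^{-1/2} ∑_y e^{-πi (y+w)ᵀB(y+w)/τ}`. -/
theorem TI97_thetaInversion (n : ℕ) (A B : Matrix (Fin n) (Fin n) ℝ) (hA : A.PosDef)
    (hAB : A * B = 1) (τ : ℂ) (hτ : 0 < τ.im) (w : Fin n → ℂ) :
    Summable (fun x : Fin n → ℤ =>
        cexp (π * I * τ * (∑ i, ∑ j, (A i j : ℂ) * x i * x j) + 2 * π * I * ∑ i, (x i : ℂ) * w i)) ∧
      Summable (fun y : Fin n → ℤ =>
        cexp (-π * I / τ * ∑ i, ∑ j, (B i j : ℂ) * (y i + w i) * (y j + w j))) ∧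
      ∑' x : Fin n → ℤ,
        cexp (π * I * τ * (∑ i, ∑ j, (A i j : ℂ) * x i * x j) + 2 * π * I * ∑ i, (x i : ℂ) * w i) =
      (1 / ((-I * τ) ^ (1 / 2 : ℂ)) ^ n) * (1 / (Real.sqrt A.det : ℂ)) *
        ∑' y : Fin n → ℤ,
          cexp (-π * I / τ * ∑ i, ∑ j, (B i j : ℂ) * (y i + w i) * (y j + w j)) := by
  have hPD := TI97_isPD_of_posDef A hA
  exact ⟨TI97_summable_term A hPD hτ w,
    TI97_summable_dual B (TI97_isPD_inv A B hPD hAB) hτ w, TI97_main n A B hPD hAB τ hτ w⟩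

end Main

end Fermat.Agent.S16
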