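import Mathlib
import Fermat.Agent.S28.H84LevelOne

/-!
# P-EIS (S16) helper: the level-one Sturm bound with coefficients in an additive subgroup

Every `q`-expansion coefficient of a level-one modular form `f` of weight `k` is a `ℤ`-linear
combination of the coefficients `a_0, …, a_{⌊k/12⌋}` (integral Miller basis).  We state this as:

`levelOne_coeff_mem_of_low`: if `I` is an additive subgroup of `ℂ` and `a_n(f) ∈ I` for all
`n` with `12 n ≤ k`, then `a_n(f) ∈ I` for all `n`.

Typical uses: `I = ℓ^b • ℤ_(ℓ)` (Sturm bound modulo `ℓ^b` for `ℓ`-integral forms),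
`I = ℤ_(ℓ)` or `I = ℤ` (integrality), `I = ⊥` (the classical Sturm bound).
-/

set_option autoImplicit false

open UpperHalfPlane ModularForm ModularFormClass MatrixGroups EisensteinSeries

namespace Fermat.Agent.S16

noncomputable section

/-- All coefficients of `f` up to (and including) degree `n` lie in `I`. -/
def LowIn (I : AddSubgroup ℂ) (n : ℕ) (f : PowerSeries ℂ) : Prop :=
  ∀ i ≤ n, PowerSeries.coeff i f ∈ I

/-- A power series with integer coefficients, viewed over `ℂ`. -/
def IsIntPS (f : PowerSeries ℂ) : Prop :=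
  ∃ F : PowerSeries ℤ, f = F.map (Int.castRingHom ℂ)

theorem IsIntPS.mul {f g : PowerSeries ℂ} (hf : IsIntPS f) (hg : IsIntPS g) :
    IsIntPS (f * g) := by
  obtain ⟨F, rfl⟩ := hf
  obtain ⟨G, rfl⟩ := hg
  exact ⟨F * G, by rw [map_mul]⟩

theorem IsIntPS.one : IsIntPS (1 : PowerSeries ℂ) := ⟨1, by rw [map_one]⟩

theorem IsIntPS.pow {f : PowerSeries ℂ} (hf : IsIntPS f) (n : ℕ) : IsIntPS (f ^ n) := by
  obtain ⟨F, rfl⟩ := hf
  exact ⟨F ^ n, by rw [map_pow]⟩

theorem IsIntPS.X : IsIntPS (PowerSeries.X : PowerSeries ℂ) :=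
  ⟨PowerSeries.X, by rw [PowerSeries.map_X]⟩

/-- Multiplying by an integral power series preserves `LowIn`. -/
theorem LowIn.intPS_mul {I : AddSubgroup ℂ} {n : ℕ} {f g : PowerSeries ℂ} (hf : IsIntPS f)
    (hg : LowIn I n g) : LowIn I n (f * g) := by
  obtain ⟨F, rfl⟩ := hf
  intro i hi
  rw [PowerSeries.coeff_mul]
  refine I.sum_mem fun x hx => ?_
  have hx' := Finset.HasAntidiagonal.mem_antidiagonal.mp hx
  rw [PowerSeries.coeff_map]
  have h2 : PowerSeries.coeff x.2 g ∈ I := hg _ (by omega)
  have e : (Int.castRingHom ℂ) (PowerSeries.coeff x.1 F) * PowerSeries.coeff x.2 g =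
      (PowerSeries.coeff x.1 F) • PowerSeries.coeff x.2 g := by
    rw [zsmul_eq_mul]; rfl
  rw [e]
  exact I.zsmul_mem h2 _

theorem LowIn.add {I : AddSubgroup ℂ} {n : ℕ} {f g : PowerSeries ℂ} (hf : LowIn I n f)
    (hg : LowIn I n g) : LowIn I n (f + g) := fun i hi => by
  rw [map_add]; exact I.add_mem (hf i hi) (hg i hi)

theorem LowIn.sub {I : AddSubgroup ℂ} {n : ℕ} {f g : PowerSeries ℂ} (hf : LowIn I n f)
    (hg : LowIn I n g) : LowIn I n (f - g) := fun i hi => by
  rw [map_sub]; exact I.sub_mem (hf i hi) (hg i hi)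

/-- A scalar in `I` times an integral power series has all its coefficients in `I`. -/
theorem LowIn.smul_intPS {I : AddSubgroup ℂ} {a : ℂ} (ha : a ∈ I) {f : PowerSeries ℂ}
    (hf : IsIntPS f) (n : ℕ) : LowIn I n (a • f) := by
  obtain ⟨F, rfl⟩ := hf
  intro i _
  rw [PowerSeries.coeff_smul, PowerSeries.coeff_map, smul_eq_mul, mul_comm]
  have e : (Int.castRingHom ℂ) (PowerSeries.coeff i F) * a = (PowerSeries.coeff i F) • a := by
    rw [zsmul_eq_mul]; rfl
  rw [e]
  exact I.zsmul_mem ha _

theorem LowIn.of_X_mul {I : AddSubgroup ℂ} {n : ℕ} {f : PowerSeries ℂ}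
    (h : LowIn I (n + 1) (PowerSeries.X * f)) : LowIn I n f := fun i hi => by
  have := h (i + 1) (by omega)
  rwa [PowerSeries.coeff_succ_X_mul] at this

theorem LowIn.X_mul {I : AddSubgroup ℂ} {n : ℕ} {f : PowerSeries ℂ}
    (h : LowIn I n f) : LowIn I n (PowerSeries.X * f) :=
  LowIn.intPS_mul IsIntPS.X h

theorem LowIn.mono {I : AddSubgroup ℂ} {n m : ℕ} {f : PowerSeries ℂ} (h : LowIn I n f)
    (hmn : m ≤ n) : LowIn I m f := fun i hi => h i (hi.trans hmn)

/-! ### Integrality of `E₄`, `E₆` and of `Δ / q` -/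

theorem isIntPS_E4 : IsIntPS (qExpansion 1 E₄) :=
  ⟨_, Fermat.Agent.S28.H84.qExpansion_E4_eq⟩

theorem isIntPS_E6 : IsIntPS (qExpansion 1 E₆) := by
  refine ⟨PowerSeries.mk fun n => if n = 0 then 1 else
    -504 * ((ArithmeticFunction.sigma 5 n : ℕ) : ℤ), ?_⟩
  ext m
  rw [EisensteinSeries.E_qExpansion_coeff _ ⟨3, rfl⟩, PowerSeries.coeff_map,
    PowerSeries.coeff_mk]
  by_cases hm : m = 0
  · simp [hm]
  · simp only [hm, if_false]
    have hb : bernoulli 6 = 1 / 42 := by decide +kernel
    rw [hb]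
    push_cast
    norm_num

theorem isIntPS_etaU : IsIntPS Fermat.Agent.S28.H84.etaU := ⟨_, rfl⟩

theorem isIntPS_etaUInv : IsIntPS Fermat.Agent.S28.H84.etaUInv := ⟨_, rfl⟩

theorem coeff_zero_E4 : PowerSeries.coeff 0 (qExpansion 1 E₄) = 1 :=
  E_qExpansion_coeff_zero _ ⟨2, rfl⟩

theorem coeff_zero_E6 : PowerSeries.coeff 0 (qExpansion 1 E₆) = 1 :=
  E_qExpansion_coeff_zero _ ⟨3, rfl⟩

/-- The form `E₄ ^ a * E₆ ^ b` of weight `k = 4 a + 6 b`. -/
def E4E6pow (a b : ℕ) (k : ℤ) (hk : (a : ℤ) * 4 + (b : ℤ) * 6 = k) : ModularForm 𝒮ℒ k :=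
  ModularForm.mcast hk ((E₄.pow a).mul (E₆.pow b))

theorem qExpansion_E4E6pow (a b : ℕ) (k : ℤ) (hk : (a : ℤ) * 4 + (b : ℤ) * 6 = k) :
    qExpansion 1 (E4E6pow a b k hk) = qExpansion 1 E₄ ^ a * qExpansion 1 E₆ ^ b := by
  rw [E4E6pow, ModularForm.qExpansion_mcast,
    ModularForm.qExpansion_mul one_pos one_mem_strictPeriods_SL,
    ModularForm.qExpansion_pow one_pos one_mem_strictPeriods_SL,
    ModularForm.qExpansion_pow one_pos one_mem_strictPeriods_SL]

theorem isIntPS_E4E6pow (a b : ℕ) (k : ℤ) (hk : (a : ℤ) * 4 + (b : ℤ) * 6 = k) :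
    IsIntPS (qExpansion 1 (E4E6pow a b k hk)) := by
  rw [qExpansion_E4E6pow]
  exact (isIntPS_E4.pow a).mul (isIntPS_E6.pow b)

theorem coeff_zero_E4E6pow (a b : ℕ) (k : ℤ) (hk : (a : ℤ) * 4 + (b : ℤ) * 6 = k) :
    PowerSeries.coeff 0 (qExpansion 1 (E4E6pow a b k hk)) = 1 := by
  rw [qExpansion_E4E6pow, PowerSeries.coeff_zero_eq_constantCoeff, map_mul, map_pow, map_pow,
    ← PowerSeries.coeff_zero_eq_constantCoeff_apply,
    ← PowerSeries.coeff_zero_eq_constantCoeff_apply, coeff_zero_E4, coeff_zero_E6, one_pow,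
    one_pow, one_mul]

/-- Every even integer `k ≥ 4` is of the form `4 a + 6 b`. -/
theorem exists_four_six {k : ℕ} (hk : 4 ≤ k) (hev : Even k) :
    ∃ a b : ℕ, (a : ℤ) * 4 + (b : ℤ) * 6 = (k : ℤ) := by
  obtain ⟨m, hm⟩ := hev
  rcases Nat.even_or_odd m with ⟨j, hj⟩ | ⟨j, hj⟩
  · exact ⟨j, 0, by push_cast; omega⟩
  · refine ⟨j - 1, 1, ?_⟩
    have hj1 : 1 ≤ j := by omega
    push_cast [Nat.cast_sub hj1]
    omega

/-! ### The main theorem -/

/-- Key induction for `levelOne_coeff_mem_of_low`. -/
theorem levelOne_lowIn_aux (I : AddSubgroup ℂ) (n : ℕ) :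
    ∀ k : ℤ, k ≤ n → ∀ f : ModularForm 𝒮ℒ k,
      (∀ i : ℕ, 12 * (i : ℤ) ≤ k → PowerSeries.coeff i (qExpansion 1 f) ∈ I) →
      ∀ i : ℕ, PowerSeries.coeff i (qExpansion 1 f) ∈ I := by
  induction n using Nat.strong_induction_on with
  | _ n ih =>
    intro k hk f hlow
    have hzero : f = 0 → ∀ i : ℕ, PowerSeries.coeff i (qExpansion 1 f) ∈ I := by
      intro h0 i
      rw [h0]
      have h00 : ((0 : ModularForm 𝒮ℒ k) : ℍ → ℂ) = 0 := rfl
      rw [h00, qExpansion_zero, map_zero]
      exact I.zero_mem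
    rcases lt_trichotomy k 0 with hneg | h0 | hpos
    · exact hzero (DFunLike.coe_injective (levelOne_neg_weight_eq_zero hneg f))
    · subst h0
      obtain ⟨c, hc⟩ := levelOne_weight_zero_const f
      have hq : qExpansion 1 f = PowerSeries.C c := by
        have : (f : ℍ → ℂ) = c • (1 : ℍ → ℂ) := by
          rw [hc]; funext z; simp
        rw [this, UpperHalfPlane.qExpansion_smul (by
          rw [show (1 : ℍ → ℂ) = ((1 : ModularForm 𝒮ℒ 0) : ℍ → ℂ) from rfl]
          exact ModularFormClass.analyticAt_cuspFunction_zero (1 : ModularForm 𝒮ℒ 0) one_pos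
            one_mem_strictPeriods_SL), qExpansion_one]
        ext i
        simp [PowerSeries.coeff_C, PowerSeries.coeff_one]
      intro i
      by_cases hi : i = 0
      · subst hi
        exact hlow 0 (by simp)
      · rw [hq, PowerSeries.coeff_C, if_neg hi]
        exact I.zero_mem
    · -- positive weight
      obtain ⟨m, rfl⟩ : ∃ m : ℕ, k = (m : ℤ) := ⟨k.toNat, (Int.toNat_of_nonneg hpos.le).symm⟩
      have hm0 : 0 < m := by exact_mod_cast hpos
      rcases Nat.even_or_odd m with hev | hodd
      · by_cases h2 : m = 2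
        · subst h2
          exact hzero (rank_zero_iff_forall_zero.mp levelOne_weight_two_rank_zero f)
        · have hm4 : 4 ≤ m := by
            obtain ⟨j, hj⟩ := hev
            omega
          obtain ⟨a, b, hab⟩ := exists_four_six hm4 hev
          set P : ModularForm 𝒮ℒ (m : ℤ) := E4E6pow a b m hab with hP
          set a₀ : ℂ := PowerSeries.coeff 0 (qExpansion 1 f) with ha₀
          have ha₀I : a₀ ∈ I := hlow 0 (by simp)
          set f' : ModularForm 𝒮ℒ (m : ℤ) := f - a₀ • P with hf'
          have hqf' : qExpansion 1 f' = qExpansion 1 f - a₀ • qExpansion 1 P := by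
            rw [hf', FunLike.coe_sub,
              ModularForm.qExpansion_sub one_pos one_mem_strictPeriods_SL, FunLike.coe_smul,
              ModularForm.qExpansion_smul one_pos one_mem_strictPeriods_SL]
          have hcusp : PowerSeries.coeff 0 (qExpansion 1 f') = 0 := by
            rw [hqf', map_sub, PowerSeries.coeff_smul, hP, coeff_zero_E4E6pow, smul_eq_mul,
              mul_one, sub_self]
          set g : ModularForm 𝒮ℒ ((m : ℤ) - 12) :=
            CuspForm.discriminantEquiv (toCuspForm f' hcusp) with hg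
          have hf'eq : (f' : ℍ → ℂ) = (CuspForm.discriminant : ℍ → ℂ) * (g : ℍ → ℂ) := by
            funext z
            rw [Pi.mul_apply, CuspForm.coe_discriminant, hg,
              discriminant_mul_discriminantEquiv_apply, toCuspForm_apply]
          have hqΔg : qExpansion 1 f' =
              PowerSeries.X * (Fermat.Agent.S28.H84.etaU * qExpansion 1 g) := by
            rw [hf'eq, ModularForm.qExpansion_mul_coe one_pos one_mem_strictPeriods_SL,
              CuspForm.coe_discriminant, Fermat.Agent.S28.H84.qExpansion_discriminant_eq',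
              mul_assoc]
          -- `g = etaUInv * (f' / X)`
          have hqg : qExpansion 1 g = Fermat.Agent.S28.H84.etaUInv *
              (Fermat.Agent.S28.H84.etaU * qExpansion 1 g) := by
            rw [← mul_assoc, mul_comm Fermat.Agent.S28.H84.etaUInv,
              Fermat.Agent.S28.H84.etaU_mul_etaUInv, one_mul]
          -- low coefficients of `g`
          have hglow : ∀ i : ℕ, 12 * (i : ℤ) ≤ (m : ℤ) - 12 →
              PowerSeries.coeff i (qExpansion 1 g) ∈ I := by
            intro i hi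
            have h1 : LowIn I (i + 1) (qExpansion 1 f') := by
              rw [hqf']
              refine LowIn.sub ?_ (LowIn.smul_intPS ha₀I (isIntPS_E4E6pow a b m hab) _)
              intro j hj
              exact hlow j (by omega)
            rw [hqΔg] at h1
            have h2 : LowIn I i (Fermat.Agent.S28.H84.etaU * qExpansion 1 g) := h1.of_X_mul
            have h3 := LowIn.intPS_mul isIntPS_etaUInv h2
            rw [← hqg] at h3
            exact h3 i le_rfl
          -- induction hypothesis for `g`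
          have hgall : ∀ i : ℕ, PowerSeries.coeff i (qExpansion 1 g) ∈ I := by
            by_cases hm12 : m < 12
            · have hgz : g = 0 := DFunLike.coe_injective
                (levelOne_neg_weight_eq_zero (by omega) g)
              intro i
              rw [hgz]
              have h00 : ((0 : ModularForm 𝒮ℒ ((m : ℤ) - 12)) : ℍ → ℂ) = 0 := rfl
              rw [h00, qExpansion_zero, map_zero]
              exact I.zero_mem
            · have hmn : m ≤ n := by exact_mod_cast hk
              exact ih (m - 12) (by omega) ((m : ℤ) - 12) (by omega) g hglow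
          -- conclusion
          intro i
          have hfall : LowIn I i (qExpansion 1 f') := by
            rw [hqΔg]
            refine LowIn.X_mul (LowIn.intPS_mul isIntPS_etaU ?_)
            intro j _
            exact hgall j
          have hfeq : qExpansion 1 f = qExpansion 1 f' + a₀ • qExpansion 1 P := by
            rw [hqf']; abel
          rw [hfeq]
          exact (LowIn.add hfall (LowIn.smul_intPS ha₀I (isIntPS_E4E6pow a b m hab) i)) i le_rfl
      · exact hzero (levelOne_odd_weight_eq_zero (by exact_mod_cast hodd) f)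

/-- **Level-one Sturm bound with coefficients in an additive subgroup.**  If the
`q`-expansion coefficients `a_n(f)` of a level-one form `f` of weight `k` lie in the additive
subgroup `I` of `ℂ` for all `n` with `12 n ≤ k`, then all coefficients of `f` lie in `I`. -/
theorem levelOne_coeff_mem_of_low (I : AddSubgroup ℂ) (k : ℤ) (f : ModularForm 𝒮ℒ k)
    (hlow : ∀ n : ℕ, 12 * (n : ℤ) ≤ k → PowerSeries.coeff n (qExpansion 1 f) ∈ I) :
    ∀ n : ℕ, PowerSeries.coeff n (qExpansion 1 f) ∈ I :=
  levelOne_lowIn_aux I k.toNat k (Int.self_le_toNat k) f hlow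

end

end Fermat.Agent.S16
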