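import Fermat.Agent.S16.Iface
import Fermat.Prelude.Thm_CongruenceSubgroup_one_mem_strictPeriods_Gamma0

/-!
# P-EIS (S16): assembly of the frozen statement from the interfaces of `Iface.lean`
-/

set_option autoImplicit false

open UpperHalfPlane ModularForm ModularFormClass MatrixGroups CongruenceSubgroup

namespace Fermat.Agent.S16

noncomputable section

/-- `1` is a strict period of `Γ₀(p)`. -/
theorem asm_one_mem_strictPeriods (p : ℕ) :
    (1 : ℝ) ∈ (Subgroup.map (Matrix.SpecialLinearGroup.mapGL ℝ) (Gamma0 p)).strictPeriods :=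
  CongruenceSubgroup.one_mem_strictPeriods_Gamma0 p

/-- The upper bound in Hecke form, from duality and the form-level upper bound. -/
theorem asm_ubHecke (p : ℕ) [Fact p.Prime] (hD : IfaceDual p)
    (hN : ∀ ℓ : ℕ, ℓ.Prime → NoCongForm p ℓ) : UBHecke p := by
  intro ℓ hℓ
  by_contra hcon
  push Not at hcon
  set a : ℕ := padicValNat ℓ (ModularCurve.eisensteinNumerator p) + 1 with ha
  have hpos : 0 < ℓ ^ a := pow_pos hℓ.pos a
  have hall : ∀ Q : ModularCurve.HeckeAlg, heckePhi p Q = 0 →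
      ((ℓ ^ a : ℕ) : ℤ) ∣ eisEval p Q := by
    intro Q hQ
    have := hcon Q hQ
    simpa using this
  obtain ⟨f, hf⟩ := hD (ℓ ^ a) hpos hall
  refine hN ℓ hℓ ⟨f, ?_⟩
  simpa [CongDelta] using hf

/-- The cusp form `f̃ = E - (p - 1) G`. -/
theorem asm_lbForm_exists (p : ℕ) [Fact p.Prime] (hE : IfaceEisP p) (hG : IfaceTheta p)
    (hC : IfaceCusp2 p) :
    ∃ f : CuspForm (Gamma0 p) 2, CongDelta p 24 (2 * ((p : ℤ) - 1)) f := by
  obtain ⟨E, hE0, hEk⟩ := hE
  obtain ⟨G, hG0, hGk⟩ := hG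
  let F : ModularForm (Gamma0 p) 2 := E - ((p : ℂ) - 1) • G
  have hq : qExpansion 1 (⇑F : ℍ → ℂ) =
      qExpansion 1 E - ((p : ℂ) - 1) • qExpansion 1 G := by
    have h1 := ModularFormClass.qExpansion_sub one_pos (asm_one_mem_strictPeriods p) E
      (((p : ℂ) - 1) • G)
    have h2 := ModularFormClass.qExpansion_smul one_pos (asm_one_mem_strictPeriods p)
      ((p : ℂ) - 1) G
    have e1 : (⇑F : ℍ → ℂ) = ⇑E - ⇑(((p : ℂ) - 1) • G) := by
      ext z; simp [F]
    have e2 : (⇑(((p : ℂ) - 1) • G) : ℍ → ℂ) = ((p : ℂ) - 1) • ⇑G := by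
      ext z; simp
    rw [e1, h1, e2, h2]
  obtain ⟨f, hf⟩ := hC F (by
    rw [hq, map_sub, PowerSeries.coeff_smul, hE0, hG0]; simp)
  have hfq : qExpansion 1 (⇑f : ℍ → ℂ) = qExpansion 1 (⇑F : ℍ → ℂ) := by
    have : (⇑f : ℍ → ℂ) = ⇑F := funext hf
    rw [this]
  refine ⟨f, fun k hk => ?_⟩
  obtain ⟨r, hr⟩ := hGk k hk
  refine ⟨-r, ?_⟩
  rw [hfq, hq]
  simp only [map_sub, PowerSeries.coeff_smul, hEk k hk, hr]
  push_cast
  ring

/-- The six case files together give `IfaceNoH`. -/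
theorem asm_noH
    (h7 : ∀ p ℓ : ℕ, p.Prime → ℓ.Prime → 5 ≤ p → 7 ≤ ℓ → NoH p ℓ)
    (h5 : ∀ p : ℕ, p.Prime → 5 ≤ p → NoH p 5)
    (h3a : ∀ p : ℕ, p.Prime → 5 ≤ p → p % 3 = 1 → NoH p 3)
    (h3b : ∀ p : ℕ, p.Prime → 5 ≤ p → p % 3 = 2 → NoH p 3)
    (h2a : ∀ p : ℕ, p.Prime → 5 ≤ p → p % 4 = 1 → NoH p 2)
    (h2b : ∀ p : ℕ, p.Prime → 5 ≤ p → p % 4 = 3 → NoH p 2) : IfaceNoH := by
  intro p ℓ hp hℓ hp5
  by_cases hℓ7 : 7 ≤ ℓ
  · exact h7 p ℓ hp hℓ hp5 hℓ7
  · have hℓ2 := hℓ.two_le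
    have hℓ4 : ℓ ≠ 4 := fun h => by rw [h] at hℓ; exact absurd hℓ (by decide)
    have hℓ6 : ℓ ≠ 6 := fun h => by rw [h] at hℓ; exact absurd hℓ (by decide)
    have hcases : ℓ = 2 ∨ ℓ = 3 ∨ ℓ = 5 := by omega
    rcases hcases with rfl | rfl | rfl
    · -- ℓ = 2: p is odd
      have hodd : p % 2 = 1 := by
        rcases hp.eq_two_or_odd with h | h
        · omega
        · exact h
      have : p % 4 = 1 ∨ p % 4 = 3 := by omega
      rcases this with h | h
      · exact h2a p hp hp5 h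
      · exact h2b p hp hp5 h
    · -- ℓ = 3: p ≠ 3
      have h3 : ¬ 3 ∣ p := fun h => by
        have := (Nat.prime_dvd_prime_iff_eq Nat.prime_three hp).mp h
        omega
      have : p % 3 = 1 ∨ p % 3 = 2 := by omega
      rcases this with h | h
      · exact h3a p hp hp5 h
      · exact h3b p hp hp5 h
    · exact h5 p hp hp5

/-- **Assembly**: the frozen statement from the interfaces. -/
theorem s16_of_ifaces (p : ℕ) [Fact p.Prime]
    (hGlue : IfaceGlue p) (hDual : IfaceDual p) (hLBF : IfaceLBForm p)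
    (hEis : IfaceEisP p) (hTheta : ModularCurve.eisensteinNumerator p ≠ 1 → IfaceTheta p)
    (hCusp2 : IfaceCusp2 p) (hUBRed : ∀ ℓ : ℕ, ℓ.Prime → IfaceUBRed p ℓ)
    (hSmall : IfaceSmall) (hNoH : IfaceNoH) :
    Nat.card (↥(CuspForm.heckeLatticeAlgebra p ∅) ⧸
        Ideal.map ((CuspForm.latticeRestrictHom p ∅).toRingHom.comp (CuspForm.heckeEvalForms p 2))
          (ModularCurve.eisensteinIdeal p)) =
      ModularCurve.eisensteinNumerator p := by
  have hp : p.Prime := Fact.out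
  refine hGlue ?_ ?_
  · -- lower bound
    by_cases h1 : ModularCurve.eisensteinNumerator p = 1
    · intro Q _
      rw [h1]
      simp
    · exact hLBF (asm_lbForm_exists p hEis (hTheta h1) hCusp2)
  · -- upper bound
    refine asm_ubHecke p hDual fun ℓ hℓ => ?_
    by_cases h5 : 5 ≤ p
    · exact hUBRed ℓ hℓ hEis (hNoH p ℓ hp hℓ h5)
    · refine hSmall p ℓ ?_ hℓ
      have h2 := hp.two_le
      have h4 : p ≠ 4 := fun h => by rw [h] at hp; exact absurd hp (by decide)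
      omega

end

end Fermat.Agent.S16
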