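import Mathlib
import Fermat.Prelude.Def_CuspForm_HeckeLocal
import Fermat.Prelude.Def_CuspForm_HeckeEvalForms
import Fermat.Prelude.Def_HeckeGalois_EichlerShimura
import Fermat.Prelude.Def_ModularCurve_ModularUnit

/-!
# P-EIS (S16): frozen definitions and interfaces

`S16`: for every prime `p`, the index of the image of the Eisenstein ideal in the integral Hecke
algebra of weight 2 and level `p` is `n = (p - 1) / gcd (p - 1, 12)`.

Notation used in the comments: `ν = gcd (p - 1, 12)`, `n = (p - 1) / ν`,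
`σ'(k) = ∑_{d ∣ k, p ∤ d} d`, `δ = ∑ σ'(k) q^k`, `E = (p - 1) + 24 δ = p E₂(pz) - E₂(z)`,
`t = exp (2πiτ/p)`, `ζ = exp (2πi/p)`.

This file contains ONLY definitions and interface statements (`def … : Prop`).  Every interface
is proved in its own module (see table `eis_tasks`); the final assembly is `Fermat/Agent/S16.lean`.
-/

set_option autoImplicit false

open UpperHalfPlane ModularForm ModularFormClass MatrixGroups CongruenceSubgroup

namespace Fermat.Agent.S16

noncomputable section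

/-! ## Arithmetic functions and formal operators -/

/-- `σ'(k) = ∑_{d ∣ k, p ∤ d} d`. -/
def sigmaP (p k : ℕ) : ℕ := ∑ d ∈ k.divisors.filter (fun d => ¬ p ∣ d), d

/-- `σ_j(k)`, with value `0` at `k = 0`. -/
def sigmaJ (j k : ℕ) : ℕ := ∑ d ∈ k.divisors, d ^ j

/-- The exponent `b = 1 + v_ℓ(24 / gcd (p - 1, 12))`. -/
def expB (p ℓ : ℕ) : ℕ := 1 + padicValNat ℓ (24 / Nat.gcd (p - 1) 12)

/-- The primitive `p`-th root of unity `ζ = exp (2πi/p)`. -/
def zetaP (p : ℕ) : ℂ := Complex.exp (2 * Real.pi * Complex.I / p)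

/-- The formal `U_p` operator on power series: `∑ a_n q^n ↦ ∑ a_{pn} q^n`. -/
def UpPS (p : ℕ) (A : PowerSeries ℂ) : PowerSeries ℂ :=
  PowerSeries.mk fun n => PowerSeries.coeff (p * n) A

/-- The formal expansion operator `∑ a_n q^n ↦ ∑ a_n t^{pn}` (junk `A` for `p = 0`). -/
def expandPS (p : ℕ) (A : PowerSeries ℂ) : PowerSeries ℂ :=
  PowerSeries.mk fun n => if p ∣ n then PowerSeries.coeff (n / p) A else 0

/-- The power series `∑_{k ≥ 1} σ_j(k) q^k`. -/
def SJ (j : ℕ) : PowerSeries ℂ := PowerSeries.mk fun k => (sigmaJ j k : ℂ)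

/-! ## The Hecke side -/

/-- The ring homomorphism of the frozen statement, `ℤ[X_ℓ] → 𝕋_L`. -/
def heckePhi (p : ℕ) [NeZero p] :
    ModularCurve.HeckeAlg →+* ↥(CuspForm.heckeLatticeAlgebra p ∅) :=
  (CuspForm.latticeRestrictHom p ∅).toRingHom.comp (CuspForm.heckeEvalForms p 2)

/-- Evaluation at the Eisenstein eigensystem, `ℤ[X_ℓ] → ℤ`. -/
def eisEval (p : ℕ) : ModularCurve.HeckeAlg →+* ℤ :=
  (MvPolynomial.aeval (R := ℤ) (ModularCurve.eisensteinSystem p)).toRingHom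

/-- **Lower bound, Hecke form**: `n ∣ Q(eis)` for every `Q` acting as `0` on the lattice. -/
def LBHecke (p : ℕ) [NeZero p] : Prop :=
  ∀ Q : ModularCurve.HeckeAlg, heckePhi p Q = 0 →
    (ModularCurve.eisensteinNumerator p : ℤ) ∣ eisEval p Q

/-- **Upper bound, Hecke form**: for every prime `ℓ` some `Q` acting as `0` on the lattice has
`ℓ^(v_ℓ(n)+1) ∤ Q(eis)`. -/
def UBHecke (p : ℕ) [NeZero p] : Prop :=
  ∀ ℓ : ℕ, ℓ.Prime → ∃ Q : ModularCurve.HeckeAlg, heckePhi p Q = 0 ∧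
    ¬ ((ℓ : ℤ) ^ (padicValNat ℓ (ModularCurve.eisensteinNumerator p) + 1) ∣ eisEval p Q)

/-- `f` is a cusp form with integral `q`-expansion congruent to `c • δ` modulo `M`. -/
def CongDelta (p : ℕ) (c M : ℤ) (f : CuspForm (Gamma0 p) 2) : Prop :=
  ∀ k : ℕ, 1 ≤ k → ∃ x : ℤ,
    PowerSeries.coeff k (qExpansion 1 f) = ((c * (sigmaP p k : ℤ) + M * x : ℤ) : ℂ)

/-! ## Forms of level `Γ₀(p)` and their expansions at the two cusps -/

/-- `F ∣[w] S` has the expansion `B` in `t = exp (2πiτ/p)`. -/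
def CuspExp (p : ℕ) (w : ℤ) (F : ModularForm (Gamma0 p) w) (B : PowerSeries ℂ) : Prop :=
  ∀ τ : ℍ, HasSum (fun n : ℕ => PowerSeries.coeff n B * Function.Periodic.qParam (p : ℝ) τ ^ n)
    (((F : ℍ → ℂ) ∣[w] ModularGroup.S) τ)

/-- `(A, B)` = (`q`-expansion at `∞`, `t`-expansion of `F ∣ S`) for some `F ∈ M_w(Γ₀(p))`. -/
def FormPair (p : ℕ) (w : ℤ) (A B : PowerSeries ℂ) : Prop :=
  ∃ F : ModularForm (Gamma0 p) w, qExpansion 1 F = A ∧ CuspExp p w F B

/-- `N` is the `q`-expansion of a level-one modular form of weight `w`. -/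
def IsLevelOneQ (w : ℤ) (N : PowerSeries ℂ) : Prop :=
  ∃ f : ModularForm 𝒮ℒ w, qExpansion 1 f = N

end

end Fermat.Agent.S16
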