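import Fermat.Agent.S16.Iface

/-!
# P-EIS (S16): shared power-series calculus for the case files

Formal operators `UpPS`, `expandPS`, `rescale (ζ^j)`; the predicates `InR R A` (coefficients in
the subring `R ⊆ ℂ`) and `ModI R I A B` (congruence modulo the ideal `I` of `R`).
-/

set_option autoImplicit false

open PowerSeries

namespace Fermat.Agent.S16

noncomputable section

/-! ## `UpPS` and `expandPS` -/

@[simp] theorem coeff_UpPS (p n : ℕ) (A : PowerSeries ℂ) :
    coeff n (UpPS p A) = coeff (p * n) A := by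
  simp [UpPS]

theorem coeff_expandPS (p n : ℕ) (A : PowerSeries ℂ) :
    coeff n (expandPS p A) = if p ∣ n then coeff (n / p) A else 0 := by
  simp [expandPS]

theorem coeff_expandPS_mul (p n : ℕ) (hp : 0 < p) (A : PowerSeries ℂ) :
    coeff (p * n) (expandPS p A) = coeff n A := by
  rw [coeff_expandPS, if_pos (dvd_mul_right p n), Nat.mul_div_cancel_left n hp]

theorem coeff_expandPS_of_not_dvd (p n : ℕ) (h : ¬ p ∣ n) (A : PowerSeries ℂ) :
    coeff n (expandPS p A) = 0 := by
  rw [coeff_expandPS, if_neg h]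

theorem expandPS_eq_expand (p : ℕ) (hp : p ≠ 0) (A : PowerSeries ℂ) :
    expandPS p A = PowerSeries.expand p hp A := by
  ext n
  rw [coeff_expandPS, PowerSeries.coeff_expand]

theorem expandPS_mul (p : ℕ) (hp : p ≠ 0) (A B : PowerSeries ℂ) :
    expandPS p (A * B) = expandPS p A * expandPS p B := by
  simp only [expandPS_eq_expand p hp, map_mul]

theorem expandPS_add (p : ℕ) (A B : PowerSeries ℂ) :
    expandPS p (A + B) = expandPS p A + expandPS p B := by
  ext n
  simp only [coeff_expandPS, map_add]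
  split_ifs <;> simp

theorem expandPS_sub (p : ℕ) (A B : PowerSeries ℂ) :
    expandPS p (A - B) = expandPS p A - expandPS p B := by
  ext n
  simp only [coeff_expandPS, map_sub]
  split_ifs <;> simp

theorem expandPS_smul (p : ℕ) (c : ℂ) (A : PowerSeries ℂ) :
    expandPS p (c • A) = c • expandPS p A := by
  ext n
  simp only [coeff_expandPS, PowerSeries.coeff_smul]
  split_ifs <;> simp

theorem expandPS_zero (p : ℕ) : expandPS p 0 = 0 := by
  ext n
  simp [coeff_expandPS]

theorem expandPS_one (p : ℕ) (hp : p ≠ 0) : expandPS p 1 = 1 := by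
  rw [expandPS_eq_expand p hp, map_one]

theorem expandPS_pow (p : ℕ) (hp : p ≠ 0) (A : PowerSeries ℂ) (n : ℕ) :
    expandPS p (A ^ n) = expandPS p A ^ n := by
  simp only [expandPS_eq_expand p hp, map_pow]

theorem expandPS_prod (p : ℕ) (hp : p ≠ 0) {ι : Type*} (s : Finset ι) (A : ι → PowerSeries ℂ) :
    expandPS p (∏ i ∈ s, A i) = ∏ i ∈ s, expandPS p (A i) := by
  simp only [expandPS_eq_expand p hp, map_prod]

theorem expandPS_injective (p : ℕ) (hp : 0 < p) : Function.Injective (expandPS p) := by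
  intro A B h
  ext n
  have := congrArg (coeff (p * n)) h
  rwa [coeff_expandPS_mul p n hp, coeff_expandPS_mul p n hp] at this

theorem UpPS_expandPS (p : ℕ) (hp : 0 < p) (A : PowerSeries ℂ) :
    UpPS p (expandPS p A) = A := by
  ext n
  rw [coeff_UpPS, coeff_expandPS_mul p n hp]

theorem UpPS_add (p : ℕ) (A B : PowerSeries ℂ) : UpPS p (A + B) = UpPS p A + UpPS p B := by
  ext n; simp

theorem UpPS_sub (p : ℕ) (A B : PowerSeries ℂ) : UpPS p (A - B) = UpPS p A - UpPS p B := by
  ext n; simp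

theorem UpPS_smul (p : ℕ) (c : ℂ) (A : PowerSeries ℂ) : UpPS p (c • A) = c • UpPS p A := by
  ext n; simp

theorem UpPS_zero (p : ℕ) : UpPS p 0 = 0 := by
  ext n; simp

theorem UpPS_one (p : ℕ) (hp : 0 < p) : UpPS p 1 = 1 := by
  ext n
  rw [coeff_UpPS, PowerSeries.coeff_one, PowerSeries.coeff_one]
  have : p * n = 0 ↔ n = 0 := by
    constructor
    · intro h
      rcases Nat.mul_eq_zero.mp h with h | h
      · omega
      · exact h
    · rintro rfl; simp
  simp only [this]

theorem UpPS_C (p : ℕ) (hp : 0 < p) (c : ℂ) : UpPS p (C c) = C c := by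
  have : (C c : PowerSeries ℂ) = c • 1 := by
    rw [PowerSeries.smul_eq_C_mul, mul_one]
  rw [this, UpPS_smul, UpPS_one p hp]

/-- `U_p (A(q) · B(q^p)) = U_p(A) · B`. -/
theorem UpPS_mul_expandPS (p : ℕ) (hp : 0 < p) (A B : PowerSeries ℂ) :
    UpPS p (A * expandPS p B) = UpPS p A * B := by
  ext n
  rw [coeff_UpPS, PowerSeries.coeff_mul, PowerSeries.coeff_mul]
  -- only the terms with `p ∣ j` survive
  have h1 : ∑ x ∈ Finset.HasAntidiagonal.antidiagonal (p * n), coeff x.1 A * coeff x.2 (expandPS p B) =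
      ∑ x ∈ (Finset.HasAntidiagonal.antidiagonal (p * n)).filter (fun x => p ∣ x.2),
        coeff x.1 A * coeff x.2 (expandPS p B) := by
    rw [Finset.sum_filter]
    refine Finset.sum_congr rfl fun x _ => ?_
    split_ifs with h
    · rfl
    · rw [coeff_expandPS_of_not_dvd p x.2 h, mul_zero]
  rw [h1]
  refine (Finset.sum_bij' (fun (x : ℕ × ℕ) _ => (p * x.1, p * x.2))
    (fun (x : ℕ × ℕ) _ => (x.1 / p, x.2 / p)) ?_ ?_ ?_ ?_ ?_).symm
  · intro x hx
    rw [Finset.mem_filter, Finset.HasAntidiagonal.mem_antidiagonal]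
    rw [Finset.HasAntidiagonal.mem_antidiagonal] at hx
    exact ⟨by rw [← hx]; ring, dvd_mul_right p x.2⟩
  · intro x hx
    rw [Finset.mem_filter, Finset.HasAntidiagonal.mem_antidiagonal] at hx
    rw [Finset.HasAntidiagonal.mem_antidiagonal]
    obtain ⟨hsum, c, hc⟩ := hx
    have h1' : p ∣ x.1 := by
      have : p ∣ x.1 + x.2 := by rw [hsum]; exact dvd_mul_right p n
      exact (Nat.dvd_add_left ⟨c, hc⟩).mp this
    obtain ⟨d, hd⟩ := h1'
    rw [hc, hd, Nat.mul_div_cancel_left _ hp, Nat.mul_div_cancel_left _ hp]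
    have : p * (d + c) = p * n := by rw [← hsum, hd, hc]; ring
    exact Nat.eq_of_mul_eq_mul_left hp this
  · intro x _
    simp [Nat.mul_div_cancel_left _ hp]
  · intro x hx
    rw [Finset.mem_filter, Finset.HasAntidiagonal.mem_antidiagonal] at hx
    obtain ⟨hsum, c, hc⟩ := hx
    have h1' : p ∣ x.1 := by
      have : p ∣ x.1 + x.2 := by rw [hsum]; exact dvd_mul_right p n
      exact (Nat.dvd_add_left ⟨c, hc⟩).mp this
    obtain ⟨d, hd⟩ := h1'
    ext
    · simp [hd, Nat.mul_div_cancel_left _ hp]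
    · simp [hc, Nat.mul_div_cancel_left _ hp]
  · intro x _
    simp only
    rw [coeff_UpPS, coeff_expandPS_mul p x.2 hp]

/-! ## roots of unity -/

theorem zetaP_isPrimitiveRoot (p : ℕ) (hp : p ≠ 0) : IsPrimitiveRoot (zetaP p) p :=
  Complex.isPrimitiveRoot_exp p hp

theorem zetaP_pow_self (p : ℕ) (hp : p ≠ 0) : zetaP p ^ p = 1 :=
  (zetaP_isPrimitiveRoot p hp).pow_eq_one

theorem rescale_zeta_expandPS (p j : ℕ) (hp : p ≠ 0) (A : PowerSeries ℂ) :
    rescale (zetaP p ^ j) (expandPS p A) = expandPS p A := by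
  ext n
  rw [PowerSeries.coeff_rescale, coeff_expandPS]
  split_ifs with h
  · obtain ⟨c, rfl⟩ := h
    rw [← pow_mul, mul_comm j, mul_assoc, pow_mul, zetaP_pow_self p hp, one_pow, one_mul]
  · simp

theorem sum_rescale_zeta (p : ℕ) (hp : p ≠ 0) (B : PowerSeries ℂ) :
    ∑ j ∈ Finset.range p, rescale (zetaP p ^ j) B = (p : ℂ) • expandPS p (UpPS p B) := by
  ext n
  rw [map_sum, PowerSeries.coeff_smul, coeff_expandPS]
  simp only [PowerSeries.coeff_rescale]
  rw [← Finset.sum_mul]
  have hz := zetaP_isPrimitiveRoot p hp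
  split_ifs with h
  · obtain ⟨c, rfl⟩ := h
    rw [coeff_UpPS, Nat.mul_div_cancel_left c (Nat.pos_of_ne_zero hp)]
    have : ∀ j ∈ Finset.range p, (zetaP p ^ j) ^ (p * c) = 1 := by
      intro j _
      rw [← pow_mul, mul_comm j, mul_assoc, pow_mul, zetaP_pow_self p hp, one_pow]
    rw [Finset.sum_congr rfl this]
    simp
  · have hne : zetaP p ^ n ≠ 1 := fun h1 => h ((hz.pow_eq_one_iff_dvd n).mp h1)
    have hgeom : ∑ j ∈ Finset.range p, (zetaP p ^ n) ^ j = 0 := by
      rw [geom_sum_eq hne, ← pow_mul, mul_comm, pow_mul, zetaP_pow_self p hp, one_pow, sub_self,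
        zero_div]
    have : ∑ j ∈ Finset.range p, (zetaP p ^ j) ^ n = ∑ j ∈ Finset.range p, (zetaP p ^ n) ^ j :=
      Finset.sum_congr rfl fun j _ => by rw [← pow_mul, ← pow_mul, mul_comm]
    rw [this, hgeom]
    simp

/-! ## membership in the ideal, coefficientwise predicates -/

/-- `x ∈ ℂ` lies in (the image of) the ideal `I` of `R`. -/
def MemI (R : Subring ℂ) (I : Ideal R) (x : ℂ) : Prop := ∃ r : R, r ∈ I ∧ x = (r : ℂ)

theorem MemI.mem {R : Subring ℂ} {I : Ideal R} {x : ℂ} (h : MemI R I x) : x ∈ R := by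
  obtain ⟨r, _, rfl⟩ := h
  exact r.2

theorem MemI.zero {R : Subring ℂ} {I : Ideal R} : MemI R I 0 := ⟨0, I.zero_mem, by simp⟩

theorem MemI.add {R : Subring ℂ} {I : Ideal R} {x y : ℂ} (hx : MemI R I x) (hy : MemI R I y) :
    MemI R I (x + y) := by
  obtain ⟨r, hr, rfl⟩ := hx
  obtain ⟨s, hs, rfl⟩ := hy
  exact ⟨r + s, I.add_mem hr hs, by simp⟩

theorem MemI.neg {R : Subring ℂ} {I : Ideal R} {x : ℂ} (hx : MemI R I x) : MemI R I (-x) := by
  obtain ⟨r, hr, rfl⟩ := hx
  exact ⟨-r, I.neg_mem hr, by simp⟩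

theorem MemI.sub {R : Subring ℂ} {I : Ideal R} {x y : ℂ} (hx : MemI R I x) (hy : MemI R I y) :
    MemI R I (x - y) := by
  rw [sub_eq_add_neg]
  exact hx.add hy.neg

theorem MemI.mul_left {R : Subring ℂ} {I : Ideal R} {x y : ℂ} (hx : x ∈ R) (hy : MemI R I y) :
    MemI R I (x * y) := by
  obtain ⟨s, hs, rfl⟩ := hy
  exact ⟨⟨x, hx⟩ * s, I.mul_mem_left _ hs, by simp⟩

theorem MemI.mul_right {R : Subring ℂ} {I : Ideal R} {x y : ℂ} (hx : MemI R I x) (hy : y ∈ R) :
    MemI R I (x * y) := by
  rw [mul_comm]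
  exact MemI.mul_left hy hx

theorem MemI.sum {R : Subring ℂ} {I : Ideal R} {ι : Type*} (s : Finset ι) (f : ι → ℂ)
    (h : ∀ i ∈ s, MemI R I (f i)) : MemI R I (∑ i ∈ s, f i) := by
  classical
  induction s using Finset.induction_on with
  | empty => simpa using MemI.zero
  | insert a s ha ih =>
    rw [Finset.sum_insert ha]
    exact (h a (Finset.mem_insert_self a s)).add
      (ih fun i hi => h i (Finset.mem_insert_of_mem hi))

theorem memI_iff {R : Subring ℂ} {I : Ideal R} (r : R) : MemI R I (r : ℂ) ↔ r ∈ I := by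
  constructor
  · rintro ⟨s, hs, h⟩
    have : r = s := Subtype.ext h
    rwa [this]
  · intro h
    exact ⟨r, h, rfl⟩

theorem modI_iff {R : Subring ℂ} {I : Ideal R} {A B : PowerSeries ℂ} :
    ModI R I A B ↔ ∀ n, MemI R I (coeff n A - coeff n B) :=
  Iff.rfl

theorem modI_zero_iff {R : Subring ℂ} {I : Ideal R} {A : PowerSeries ℂ} :
    ModI R I A 0 ↔ ∀ n, MemI R I (coeff n A) := by
  rw [modI_iff]
  simp

/-- An integer lies in `I` iff it is divisible by `ℓ` (for `I` prime containing `ℓ`). -/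
theorem memI_intCast_iff {R : Subring ℂ} {I : Ideal R} (hI : I.IsPrime) {ℓ : ℕ} (hℓ : ℓ.Prime)
    (hℓI : ((ℓ : ℕ) : R) ∈ I) (m : ℤ) : MemI R I (m : ℂ) ↔ (ℓ : ℤ) ∣ m := by
  have hcast : ((m : R) : ℂ) = (m : ℂ) := by simp
  rw [← hcast, memI_iff]
  constructor
  · intro hm
    by_contra hnd
    have hcop : IsCoprime (ℓ : ℤ) m := by
      rw [Int.isCoprime_iff_gcd_eq_one]
      have := (Nat.Prime.coprime_iff_not_dvd hℓ).mpr (fun h : ℓ ∣ m.natAbs =>
        hnd (Int.natCast_dvd.mpr h))
      simpa [Int.gcd] using this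
    obtain ⟨x, y, hxy⟩ := hcop
    have h1 : (1 : R) ∈ I := by
      have : (1 : R) = (x : R) * ((ℓ : ℕ) : R) + (y : R) * (m : R) := by
        have := congrArg (Int.cast : ℤ → R) hxy
        push_cast at this
        rw [← this]
      rw [this]
      exact I.add_mem (I.mul_mem_left _ hℓI) (I.mul_mem_left _ hm)
    exact hI.ne_top ((Ideal.eq_top_iff_one I).mpr h1)
  · rintro ⟨c, rfl⟩
    push_cast
    exact I.mul_mem_right _ (by exact_mod_cast hℓI)

theorem memI_natCast_iff {R : Subring ℂ} {I : Ideal R} (hI : I.IsPrime) {ℓ : ℕ} (hℓ : ℓ.Prime)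
    (hℓI : ((ℓ : ℕ) : R) ∈ I) (m : ℕ) : MemI R I (m : ℂ) ↔ ℓ ∣ m := by
  have := memI_intCast_iff hI hℓ hℓI (m : ℤ)
  rw [Int.natCast_dvd_natCast] at this
  simpa using this

/-! ## `InR` -/

theorem InR.zero {R : Subring ℂ} : InR R 0 := fun n => by simp [R.zero_mem]

theorem InR.one {R : Subring ℂ} : InR R 1 := fun n => by
  rw [PowerSeries.coeff_one]
  split_ifs
  · exact R.one_mem
  · exact R.zero_mem

theorem InR.C {R : Subring ℂ} {c : ℂ} (hc : c ∈ R) : InR R (PowerSeries.C c) := fun n => by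
  rw [PowerSeries.coeff_C]
  split_ifs
  · exact hc
  · exact R.zero_mem

theorem InR.X {R : Subring ℂ} : InR R (PowerSeries.X) := fun n => by
  rw [PowerSeries.coeff_X]
  split_ifs
  · exact R.one_mem
  · exact R.zero_mem

theorem InR.add {R : Subring ℂ} {A B : PowerSeries ℂ} (hA : InR R A) (hB : InR R B) :
    InR R (A + B) := fun n => by
  rw [map_add]; exact R.add_mem (hA n) (hB n)

theorem InR.sub {R : Subring ℂ} {A B : PowerSeries ℂ} (hA : InR R A) (hB : InR R B) :
    InR R (A - B) := fun n => by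
  rw [map_sub]; exact R.sub_mem (hA n) (hB n)

theorem InR.neg {R : Subring ℂ} {A : PowerSeries ℂ} (hA : InR R A) : InR R (-A) := fun n => by
  rw [map_neg]; exact R.neg_mem (hA n)

theorem InR.mul {R : Subring ℂ} {A B : PowerSeries ℂ} (hA : InR R A) (hB : InR R B) :
    InR R (A * B) := fun n => by
  rw [PowerSeries.coeff_mul]
  exact R.sum_mem fun x _ => R.mul_mem (hA _) (hB _)

theorem InR.smul {R : Subring ℂ} {c : ℂ} (hc : c ∈ R) {A : PowerSeries ℂ} (hA : InR R A) :
    InR R (c • A) := fun n => by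
  rw [PowerSeries.coeff_smul]; exact R.mul_mem hc (hA n)

theorem InR.pow {R : Subring ℂ} {A : PowerSeries ℂ} (hA : InR R A) (n : ℕ) : InR R (A ^ n) := by
  induction n with
  | zero => simpa using InR.one
  | succ n ih => rw [pow_succ]; exact ih.mul hA

theorem InR.prod {R : Subring ℂ} {ι : Type*} (s : Finset ι) (A : ι → PowerSeries ℂ)
    (h : ∀ i ∈ s, InR R (A i)) : InR R (∏ i ∈ s, A i) := by
  classical
  induction s using Finset.induction_on with
  | empty => simpa using InR.one
  | insert a s ha ih =>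
    rw [Finset.prod_insert ha]
    exact (h a (Finset.mem_insert_self a s)).mul
      (ih fun i hi => h i (Finset.mem_insert_of_mem hi))

theorem InR.expandPS {R : Subring ℂ} {A : PowerSeries ℂ} (hA : InR R A) (p : ℕ) :
    InR R (expandPS p A) := fun n => by
  rw [coeff_expandPS]
  split_ifs
  · exact hA _
  · exact R.zero_mem

theorem InR.UpPS {R : Subring ℂ} {A : PowerSeries ℂ} (hA : InR R A) (p : ℕ) :
    InR R (UpPS p A) := fun n => by
  rw [coeff_UpPS]; exact hA _

theorem InR.rescale {R : Subring ℂ} {a : ℂ} (ha : a ∈ R) {A : PowerSeries ℂ} (hA : InR R A) :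
    InR R (PowerSeries.rescale a A) := fun n => by
  rw [PowerSeries.coeff_rescale]; exact R.mul_mem (R.pow_mem ha n) (hA n)

theorem inR_SJ (R : Subring ℂ) (j : ℕ) : InR R (SJ j) := fun n => by
  simp only [SJ, PowerSeries.coeff_mk]
  exact natCast_mem R _

/-! ## `ModI` -/

theorem ModI.refl {R : Subring ℂ} {I : Ideal R} (A : PowerSeries ℂ) : ModI R I A A := by
  rw [modI_iff]; intro n; simpa using MemI.zero

theorem ModI.symm {R : Subring ℂ} {I : Ideal R} {A B : PowerSeries ℂ} (h : ModI R I A B) :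
    ModI R I B A := by
  rw [modI_iff] at h ⊢
  intro n
  have := (h n).neg
  simpa using this

theorem ModI.trans {R : Subring ℂ} {I : Ideal R} {A B C : PowerSeries ℂ} (h : ModI R I A B)
    (h' : ModI R I B C) : ModI R I A C := by
  rw [modI_iff] at h h' ⊢
  intro n
  have := (h n).add (h' n)
  simpa using this

theorem ModI.add {R : Subring ℂ} {I : Ideal R} {A A' B B' : PowerSeries ℂ} (h : ModI R I A A')
    (h' : ModI R I B B') : ModI R I (A + B) (A' + B') := by
  rw [modI_iff] at h h' ⊢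
  intro n
  have := (h n).add (h' n)
  rw [map_add, map_add]
  convert this using 1
  ring

theorem ModI.neg {R : Subring ℂ} {I : Ideal R} {A A' : PowerSeries ℂ} (h : ModI R I A A') :
    ModI R I (-A) (-A') := by
  rw [modI_iff] at h ⊢
  intro n
  have := (h n).neg
  rw [map_neg, map_neg]
  convert this using 1
  ring

theorem ModI.sub {R : Subring ℂ} {I : Ideal R} {A A' B B' : PowerSeries ℂ} (h : ModI R I A A')
    (h' : ModI R I B B') : ModI R I (A - B) (A' - B') := by
  rw [sub_eq_add_neg, sub_eq_add_neg]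
  exact h.add h'.neg

theorem ModI.mul {R : Subring ℂ} {I : Ideal R} {A A' B B' : PowerSeries ℂ} (hA : InR R A)
    (hB' : InR R B') (h : ModI R I A A') (h' : ModI R I B B') : ModI R I (A * B) (A' * B') := by
  rw [modI_iff] at h h' ⊢
  intro n
  have e : A * B - A' * B' = A * (B - B') + (A - A') * B' := by ring
  rw [← map_sub, e, map_add, PowerSeries.coeff_mul, PowerSeries.coeff_mul]
  refine MemI.add (MemI.sum _ _ fun x _ => ?_) (MemI.sum _ _ fun x _ => ?_)
  · rw [map_sub]
    exact MemI.mul_left (hA _) (h' _)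
  · rw [map_sub]
    exact MemI.mul_right (h _) (hB' _)

theorem ModI.smul {R : Subring ℂ} {I : Ideal R} {c : ℂ} (hc : c ∈ R) {A A' : PowerSeries ℂ}
    (h : ModI R I A A') : ModI R I (c • A) (c • A') := by
  rw [modI_iff] at h ⊢
  intro n
  rw [PowerSeries.coeff_smul, PowerSeries.coeff_smul, smul_eq_mul, smul_eq_mul, ← mul_sub]
  exact MemI.mul_left hc (h n)

/-- a scalar in `I` times a series over `R` is `≡ 0`. -/
theorem ModI.smul_of_memI {R : Subring ℂ} {I : Ideal R} {c : ℂ} (hc : MemI R I c)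
    {A : PowerSeries ℂ} (hA : InR R A) : ModI R I (c • A) 0 := by
  rw [modI_zero_iff]
  intro n
  rw [PowerSeries.coeff_smul]
  exact MemI.mul_right hc (hA n)

theorem ModI.pow {R : Subring ℂ} {I : Ideal R} {A A' : PowerSeries ℂ} (hA : InR R A)
    (hA' : InR R A') (h : ModI R I A A') (n : ℕ) : ModI R I (A ^ n) (A' ^ n) := by
  induction n with
  | zero => simpa using ModI.refl (R := R) (I := I) 1
  | succ n ih =>
    rw [pow_succ, pow_succ]
    exact ModI.mul (hA.pow n) hA' ih h

theorem ModI.prod {R : Subring ℂ} {I : Ideal R} {ι : Type*} (s : Finset ι)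
    (A A' : ι → PowerSeries ℂ) (hA : ∀ i ∈ s, InR R (A i)) (hA' : ∀ i ∈ s, InR R (A' i))
    (h : ∀ i ∈ s, ModI R I (A i) (A' i)) : ModI R I (∏ i ∈ s, A i) (∏ i ∈ s, A' i) := by
  classical
  induction s using Finset.induction_on with
  | empty => simpa using ModI.refl (R := R) (I := I) 1
  | insert a s ha ih =>
    rw [Finset.prod_insert ha, Finset.prod_insert ha]
    exact ModI.mul (hA a (Finset.mem_insert_self a s))
      (InR.prod s A' fun i hi => hA' i (Finset.mem_insert_of_mem hi))
      (h a (Finset.mem_insert_self a s))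
      (ih (fun i hi => hA i (Finset.mem_insert_of_mem hi))
        (fun i hi => hA' i (Finset.mem_insert_of_mem hi))
        (fun i hi => h i (Finset.mem_insert_of_mem hi)))

theorem ModI.expandPS {R : Subring ℂ} {I : Ideal R} {A A' : PowerSeries ℂ} (h : ModI R I A A')
    (p : ℕ) : ModI R I (expandPS p A) (expandPS p A') := by
  rw [modI_iff] at h ⊢
  intro n
  rw [coeff_expandPS, coeff_expandPS]
  split_ifs
  · exact h _
  · simpa using MemI.zero

theorem ModI.UpPS {R : Subring ℂ} {I : Ideal R} {A A' : PowerSeries ℂ} (h : ModI R I A A')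
    (p : ℕ) : ModI R I (UpPS p A) (UpPS p A') := by
  rw [modI_iff] at h ⊢
  intro n
  rw [coeff_UpPS, coeff_UpPS]
  exact h _

theorem ModI.rescale {R : Subring ℂ} {I : Ideal R} {a : ℂ} (ha : a ∈ R) {A A' : PowerSeries ℂ}
    (h : ModI R I A A') : ModI R I (PowerSeries.rescale a A) (PowerSeries.rescale a A') := by
  rw [modI_iff] at h ⊢
  intro n
  rw [PowerSeries.coeff_rescale, PowerSeries.coeff_rescale, ← mul_sub]
  exact MemI.mul_left (R.pow_mem ha n) (h n)

theorem ModI.of_expandPS {R : Subring ℂ} {I : Ideal R} {A A' : PowerSeries ℂ} {p : ℕ}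
    (hp : 0 < p) (h : ModI R I (Fermat.Agent.S16.expandPS p A) (Fermat.Agent.S16.expandPS p A')) :
    ModI R I A A' := by
  rw [modI_iff] at h ⊢
  intro n
  have := h (p * n)
  rwa [coeff_expandPS_mul p n hp, coeff_expandPS_mul p n hp] at this

/-! ## the domain property -/

/-- the lift of a series with coefficients in `R` to `R⟦X⟧` -/
def liftR (R : Subring ℂ) (A : PowerSeries ℂ) (hA : InR R A) : PowerSeries R :=
  PowerSeries.mk fun n => ⟨coeff n A, hA n⟩

theorem map_liftR (R : Subring ℂ) (A : PowerSeries ℂ) (hA : InR R A) :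
    PowerSeries.map R.subtype (liftR R A hA) = A := by
  ext n
  simp [liftR]

theorem liftR_mul (R : Subring ℂ) (A B : PowerSeries ℂ) (hA : InR R A) (hB : InR R B) :
    liftR R (A * B) (hA.mul hB) = liftR R A hA * liftR R B hB := by
  have hinj : Function.Injective (PowerSeries.map R.subtype) := by
    intro x y hxy
    ext n
    have := congrArg (coeff n) hxy
    simp only [PowerSeries.coeff_map] at this
    exact this
  apply hinj
  rw [map_mul, map_liftR, map_liftR, map_liftR]

theorem modI_zero_iff_map {R : Subring ℂ} {I : Ideal R} (A : PowerSeries ℂ) (hA : InR R A) :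
    ModI R I A 0 ↔ PowerSeries.map (Ideal.Quotient.mk I) (liftR R A hA) = 0 := by
  rw [modI_zero_iff]
  constructor
  · intro h
    ext n
    rw [PowerSeries.coeff_map, map_zero, Ideal.Quotient.eq_zero_iff_mem]
    have := (memI_iff (I := I) (⟨coeff n A, hA n⟩ : R)).mp (h n)
    simpa [liftR] using this
  · intro h n
    have := congrArg (coeff n) h
    rw [PowerSeries.coeff_map, map_zero, Ideal.Quotient.eq_zero_iff_mem] at this
    have h2 : (⟨coeff n A, hA n⟩ : R) ∈ I := by simpa [liftR] using this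
    exact (memI_iff (I := I) (⟨coeff n A, hA n⟩ : R)).mpr h2

/-- **Domain property**: `R⟦q⟧ / I` has no zero divisors when `I` is prime. -/
theorem ModI.mul_eq_zero {R : Subring ℂ} {I : Ideal R} (hI : I.IsPrime) {A B : PowerSeries ℂ}
    (hA : InR R A) (hB : InR R B) (h : ModI R I (A * B) 0) : ModI R I A 0 ∨ ModI R I B 0 := by
  haveI := hI
  rw [modI_zero_iff_map A hA, modI_zero_iff_map B hB]
  rw [modI_zero_iff_map (A * B) (hA.mul hB), liftR_mul R A B hA hB, map_mul] at h
  exact _root_.mul_eq_zero.mp h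

theorem ModI.pow_eq_zero {R : Subring ℂ} {I : Ideal R} (hI : I.IsPrime) {A : PowerSeries ℂ}
    (hA : InR R A) (n : ℕ) (h : ModI R I (A ^ n) 0) : ModI R I A 0 ∨ n = 0 := by
  induction n with
  | zero => exact Or.inr rfl
  | succ n ih =>
    rw [pow_succ] at h
    rcases ModI.mul_eq_zero hI (hA.pow n) hA h with h1 | h1
    · rcases ih h1 with h2 | h2
      · exact Or.inl h2
      · subst h2
        exfalso
        rw [pow_zero, modI_zero_iff] at h1
        have := h1 0
        rw [PowerSeries.coeff_one, if_pos rfl] at this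
        have h3 : (1 : R) ∈ I := by
          have := (memI_iff (I := I) (1 : R)).mp (by simpa using this)
          exact this
        exact hI.ne_top ((Ideal.eq_top_iff_one I).mpr h3)
    · exact Or.inl h1

end

end Fermat.Agent.S16
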